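import Mathlib
import Fermat.Agent.S13.Unif.ODE

/-!
# PROJECT M (S15), block [E1], analytic core, part 1

`L : PeriodPair`.  For `x ∉ L`:

* `sumInvPow_four` : `∑_{l ∈ L} (l - x)⁻⁴ = ℘(x)² - g₂/12`;
* `sumInvPow_six`  : `∑_{l ∈ L} (l - x)⁻⁶ = ℘(x)³ - (3/20) g₂ ℘(x) - g₃/10`.

Proof: the Taylor coefficients of `℘` at `x` are `(i+1) ∑ (l - x)^{-(i+2)}` (Mathlib), and the
iterated derivatives of `℘` follow from `℘'' = 6℘² - g₂/2`.
-/

set_option autoImplicit false

noncomputable section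

namespace Fermat.Agent.S15.E1.SumInvPow

open Filter Topology
open Fermat.Agent.S13.Unif.ODE
open scoped Nat

variable (L : PeriodPair)

local notation "℘" => L.weierstrassP
local notation "℘'" => L.derivWeierstrassP

/-- the second derivative function -/
def d2 (z : ℂ) : ℂ := 6 * ℘ z ^ 2 - L.g₂ / 2

/-- the third derivative function -/
def d3 (z : ℂ) : ℂ := 12 * ℘ z * ℘' z

/-- the fourth derivative function -/
def d4 (z : ℂ) : ℂ := 120 * ℘ z ^ 3 - 18 * L.g₂ * ℘ z - 12 * L.g₃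

theorem hasDerivAt_d2 {z : ℂ} (hz : z ∉ L.lattice) : HasDerivAt (d2 L) (d3 L z) z := by
  have hP := hasDerivAt_weierstrassP L hz
  have h := ((hP.pow 2).const_mul 6).sub_const (L.g₂ / 2)
  refine h.congr_deriv ?_
  simp only [d3, Nat.cast_ofNat, Nat.add_one_sub_one, pow_one]
  ring

theorem hasDerivAt_d3 {z : ℂ} (hz : z ∉ L.lattice) : HasDerivAt (d3 L) (d4 L z) z := by
  have hP := hasDerivAt_weierstrassP L hz
  have hP' := hasDerivAt_derivWeierstrassP L hz
  have h := (hP.const_mul 12).mul hP'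
  refine h.congr_deriv ?_
  simp only [d4]
  have hsq := L.derivWeierstrassP_sq z hz
  linear_combination 12 * hsq

theorem eventually_notMem {z : ℂ} (hz : z ∉ L.lattice) : ∀ᶠ w in 𝓝 z, w ∉ L.lattice :=
  (isOpen_compl_lattice L).mem_nhds hz

theorem deriv_weierstrassP_eventuallyEq {z : ℂ} (hz : z ∉ L.lattice) :
    deriv ℘ =ᶠ[𝓝 z] ℘' := by
  filter_upwards [eventually_notMem L hz] with w hw using (hasDerivAt_weierstrassP L hw).deriv

theorem deriv_derivWeierstrassP_eventuallyEq {z : ℂ} (hz : z ∉ L.lattice) :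
    deriv ℘' =ᶠ[𝓝 z] d2 L := by
  filter_upwards [eventually_notMem L hz] with w hw
    using (hasDerivAt_derivWeierstrassP L hw).deriv

theorem deriv_d2_eventuallyEq {z : ℂ} (hz : z ∉ L.lattice) :
    deriv (d2 L) =ᶠ[𝓝 z] d3 L := by
  filter_upwards [eventually_notMem L hz] with w hw using (hasDerivAt_d2 L hw).deriv

theorem deriv_d3_eventuallyEq {z : ℂ} (hz : z ∉ L.lattice) :
    deriv (d3 L) =ᶠ[𝓝 z] d4 L := by
  filter_upwards [eventually_notMem L hz] with w hw using (hasDerivAt_d3 L hw).deriv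

theorem iteratedDeriv_two_eventuallyEq {z : ℂ} (hz : z ∉ L.lattice) :
    iteratedDeriv 2 ℘ =ᶠ[𝓝 z] d2 L := by
  have h1 : iteratedDeriv 2 ℘ = deriv (deriv ℘) := by
    rw [iteratedDeriv_succ, iteratedDeriv_one]
  rw [h1]
  filter_upwards [eventually_eventually_nhds.mpr (deriv_weierstrassP_eventuallyEq L hz),
    deriv_derivWeierstrassP_eventuallyEq L hz] with w hw1 hw2
  rw [← hw2]
  exact Filter.EventuallyEq.deriv_eq hw1

theorem iteratedDeriv_three_eventuallyEq {z : ℂ} (hz : z ∉ L.lattice) :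
    iteratedDeriv 3 ℘ =ᶠ[𝓝 z] d3 L := by
  have h1 : iteratedDeriv 3 ℘ = deriv (iteratedDeriv 2 ℘) := by
    rw [iteratedDeriv_succ]
  rw [h1]
  filter_upwards [eventually_eventually_nhds.mpr (iteratedDeriv_two_eventuallyEq L hz),
    deriv_d2_eventuallyEq L hz] with w hw1 hw2
  rw [← hw2]
  exact Filter.EventuallyEq.deriv_eq hw1

theorem iteratedDeriv_four_eq {z : ℂ} (hz : z ∉ L.lattice) :
    iteratedDeriv 4 ℘ z = d4 L z := by
  have h1 : iteratedDeriv 4 ℘ = deriv (iteratedDeriv 3 ℘) := by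
    rw [iteratedDeriv_succ]
  rw [h1, Filter.EventuallyEq.deriv_eq (iteratedDeriv_three_eventuallyEq L hz)]
  exact (hasDerivAt_d3 L hz).deriv

theorem iteratedDeriv_two_eq {z : ℂ} (hz : z ∉ L.lattice) :
    iteratedDeriv 2 ℘ z = d2 L z :=
  (iteratedDeriv_two_eventuallyEq L hz).self_of_nhds

/-- the Mathlib Taylor coefficient formula at a point off the lattice -/
theorem iteratedDeriv_eq_sumInvPow {x : ℂ} (hx : x ∉ L.lattice) {n : ℕ} (hn : n ≠ 0) :
    iteratedDeriv n ℘ x = (n + 1)! * L.sumInvPow x (n + 2) := by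
  have h := L.iteratedDeriv_weierstrassPExcept_self x (n := n)
  rw [if_neg hn, L.weierstrassPExcept_of_notMem x hx] at h
  exact h

/-- `∑_{l ∈ L} (l - x)⁻⁴ = ℘(x)² - g₂/12` -/
theorem sumInvPow_four {x : ℂ} (hx : x ∉ L.lattice) :
    L.sumInvPow x 4 = ℘ x ^ 2 - L.g₂ / 12 := by
  have h := iteratedDeriv_eq_sumInvPow L hx (n := 2) (by norm_num)
  rw [iteratedDeriv_two_eq L hx, d2] at h
  have h6 : (((2 + 1)! : ℕ) : ℂ) = 6 := by norm_num [Nat.factorial]
  rw [h6] at h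
  linear_combination (-1 / 6 : ℂ) * h

/-- `∑_{l ∈ L} (l - x)⁻⁶ = ℘(x)³ - (3/20) g₂ ℘(x) - g₃/10` -/
theorem sumInvPow_six {x : ℂ} (hx : x ∉ L.lattice) :
    L.sumInvPow x 6 = ℘ x ^ 3 - 3 / 20 * L.g₂ * ℘ x - L.g₃ / 10 := by
  have h := iteratedDeriv_eq_sumInvPow L hx (n := 4) (by norm_num)
  rw [iteratedDeriv_four_eq L hx, d4] at h
  have h120 : (((4 + 1)! : ℕ) : ℂ) = 120 := by norm_num [Nat.factorial]
  rw [h120] at h
  linear_combination (-1 / 120 : ℂ) * h

end Fermat.Agent.S15.E1.SumInvPow
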