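import Mathlib
import Fermat.Agent.S15.E1.SumInvPow

/-!
# PROJECT M (S15), block [E1], analytic core, part 2 (general form)

`L`, `L'` period pairs with `L.lattice ≤ L'.lattice` and a finite set `R` of representatives of the
NONZERO classes of `L'/L` (`IsReps L L' R`).

* `G_eq` : `G_n(L') = G_n(L) + ∑_{r ∈ R} ∑_{l ∈ L} (l + r)⁻ⁿ` for `n > 2`;
* `g₂_eq` : `g₂(L') = g₂(L) + ∑_{r ∈ R} (60 ℘_L(r)² - 5 g₂(L))`   (`= g₂ + 10 ∑ ℘''(r)`);
* `g₃_eq` : `g₃(L') = g₃(L) + ∑_{r ∈ R} (140 ℘_L(r)³ - 21 g₂(L) ℘_L(r) - 14 g₃(L))`.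
-/

set_option autoImplicit false

noncomputable section

namespace Fermat.Agent.S15.E1.SubLattice

open Filter Topology
open Fermat.Agent.S15.E1.SumInvPow

/-- `R` is a set of representatives of the nonzero classes of `L'.lattice / L.lattice`. -/
structure IsReps (L L' : PeriodPair) (R : Finset ℂ) : Prop where
  le : L.lattice ≤ L'.lattice
  mem : ∀ r ∈ R, r ∈ L'.lattice
  notMem : ∀ r ∈ R, r ∉ L.lattice
  exists_rep : ∀ z ∈ L'.lattice, z ∉ L.lattice → ∃ r ∈ R, z - r ∈ L.lattice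
  unique : ∀ r ∈ R, ∀ r' ∈ R, r - r' ∈ L.lattice → r = r'

variable {L L' : PeriodPair} {R : Finset ℂ}

/-- `∑_{l ∈ L} (l - x)⁻ⁿ` at a lattice point `x` is `G_n` -/
theorem sumInvPow_of_mem (L : PeriodPair) {x : ℂ} (hx : x ∈ L.lattice) (n : ℕ) :
    L.sumInvPow x n = L.G n := by
  rw [PeriodPair.sumInvPow, PeriodPair.G]
  let e : L.lattice ≃ L.lattice := Equiv.addRight (⟨x, hx⟩ : L.lattice)
  rw [← e.tsum_eq]
  refine tsum_congr fun l => ?_
  simp [e]

namespace IsReps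

variable (h : IsReps L L' R)
include h

theorem zero_notMem : (0 : ℂ) ∉ R := fun h0 => h.notMem 0 h0 (zero_mem _)

/-- the parametrisation `(insert 0 R) × L → L'` -/
def param (p : {r // r ∈ insert (0 : ℂ) R} × L.lattice) : L'.lattice :=
  ⟨p.1.1 + p.2.1, by
    refine add_mem ?_ (h.le p.2.2)
    rcases Finset.mem_insert.mp p.1.2 with h0 | hr
    · rw [h0]; exact zero_mem _
    · exact h.mem _ hr⟩

theorem param_injective : Function.Injective h.param := by
  rintro ⟨⟨r, hr⟩, ⟨l, hl⟩⟩ ⟨⟨r', hr'⟩, ⟨l', hl'⟩⟩ heq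
  have e : r + l = r' + l' := congrArg Subtype.val heq
  have hd : r - r' ∈ L.lattice := by
    have : r - r' = l' - l := by linear_combination e
    rw [this]
    exact sub_mem hl' hl
  have hrr : r = r' := by
    rcases Finset.mem_insert.mp hr with h0 | hR
    · rcases Finset.mem_insert.mp hr' with h0' | hR'
      · rw [h0, h0']
      · exfalso
        apply h.notMem r' hR'
        rw [h0, zero_sub] at hd
        simpa using L.lattice.neg_mem hd
    · rcases Finset.mem_insert.mp hr' with h0' | hR'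
      · exfalso
        apply h.notMem r hR
        rw [h0', sub_zero] at hd
        exact hd
      · exact h.unique r hR r' hR' hd
  subst hrr
  have hll : l = l' := by linear_combination e
  subst hll
  rfl

theorem param_surjective : Function.Surjective h.param := by
  rintro ⟨z, hz⟩
  by_cases hzL : z ∈ L.lattice
  · exact ⟨(⟨0, Finset.mem_insert_self _ _⟩, ⟨z, hzL⟩), Subtype.ext (by simp [param])⟩
  · obtain ⟨r, hr, hzr⟩ := h.exists_rep z hz hzL
    exact ⟨(⟨r, Finset.mem_insert_of_mem hr⟩, ⟨z - r, hzr⟩), Subtype.ext (by simp [param])⟩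

/-- the parametrisation as an equivalence -/
def paramEquiv : {r // r ∈ insert (0 : ℂ) R} × L.lattice ≃ L'.lattice :=
  Equiv.ofBijective h.param ⟨h.param_injective, h.param_surjective⟩

theorem coe_paramEquiv (p : {r // r ∈ insert (0 : ℂ) R} × L.lattice) :
    ((h.paramEquiv p : L'.lattice) : ℂ) = p.1.1 + p.2.1 := rfl

theorem G_eq_sum_insert {n : ℕ} (hn : 2 < n) :
    L'.G n = ∑ r ∈ insert (0 : ℂ) R, L.sumInvPow (-r) n := by
  have hsum' : Summable fun l : L'.lattice => (((l : ℂ)) ^ n)⁻¹ := by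
    have h1 := (L'.hasSum_sumInvPow 0 hn).summable
    simpa using h1
  have hsumR : Summable fun p : {r // r ∈ insert (0 : ℂ) R} × L.lattice =>
      (((h.paramEquiv p : L'.lattice) : ℂ) ^ n)⁻¹ :=
    h.paramEquiv.summable_iff.mpr hsum'
  have hfib : ∀ r : ℂ, Summable fun l : L.lattice => (((l : ℂ) - -r) ^ n)⁻¹ :=
    fun r => (L.hasSum_sumInvPow (-r) hn).summable
  rw [PeriodPair.G, ← h.paramEquiv.tsum_eq, hsumR.tsum_prod' (fun r => ?_), tsum_fintype,
    ← Finset.sum_coe_sort (insert (0 : ℂ) R) fun r => L.sumInvPow (-r) n]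
  · refine Finset.sum_congr rfl fun r _ => ?_
    rw [PeriodPair.sumInvPow]
    refine tsum_congr fun l => ?_
    rw [coe_paramEquiv]
    congr 2
    ring
  · refine (hfib r.1).congr fun l => ?_
    rw [coe_paramEquiv]
    congr 2
    ring

/-- **Eisenstein sums of the bigger lattice.** -/
theorem G_eq {n : ℕ} (hn : 2 < n) :
    L'.G n = L.G n + ∑ r ∈ R, L.sumInvPow (-r) n := by
  rw [h.G_eq_sum_insert hn, Finset.sum_insert h.zero_notMem, neg_zero,
    sumInvPow_of_mem L (zero_mem _) n]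

theorem neg_notMem {r : ℂ} (hr : r ∈ R) : -r ∉ L.lattice := fun hn =>
  h.notMem r hr (by simpa using L.lattice.neg_mem hn)

/-- **`g₂` of the bigger lattice**: `g₂' = g₂ + ∑_{r ∈ R} (60 ℘(r)² - 5 g₂)`. -/
theorem g₂_eq :
    L'.g₂ = L.g₂ + ∑ r ∈ R, (60 * L.weierstrassP r ^ 2 - 5 * L.g₂) := by
  rw [PeriodPair.g₂, h.G_eq (by norm_num), mul_add, Finset.mul_sum, ← PeriodPair.g₂]
  congr 1
  refine Finset.sum_congr rfl fun r hr => ?_
  rw [sumInvPow_four L (h.neg_notMem hr), L.weierstrassP_neg]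
  ring

/-- **`g₃` of the bigger lattice**:
`g₃' = g₃ + ∑_{r ∈ R} (140 ℘(r)³ - 21 g₂ ℘(r) - 14 g₃)`. -/
theorem g₃_eq :
    L'.g₃ = L.g₃ + ∑ r ∈ R, (140 * L.weierstrassP r ^ 3
      - 21 * L.g₂ * L.weierstrassP r - 14 * L.g₃) := by
  rw [PeriodPair.g₃, h.G_eq (by norm_num), mul_add, Finset.mul_sum, ← PeriodPair.g₃]
  congr 1
  refine Finset.sum_congr rfl fun r hr => ?_
  rw [sumInvPow_six L (h.neg_notMem hr), L.weierstrassP_neg]
  ring

/-- `g₂' = g₂ + 10 ∑ ℘''(r)` with `℘'' = 6℘² - g₂/2` (the form used by [E2]). -/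
theorem g₂_eq' :
    L'.g₂ = L.g₂ + 10 * ∑ r ∈ R, (6 * L.weierstrassP r ^ 2 - L.g₂ / 2) := by
  rw [h.g₂_eq, Finset.mul_sum]
  congr 1
  refine Finset.sum_congr rfl fun r _ => ?_
  ring

end IsReps

end Fermat.Agent.S15.E1.SubLattice
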