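import Mathlib
import Fermat.Agent.S13.CU.Uniformize
import Fermat.Agent.S13.CU.UnifIso
import Fermat.Agent.S13.CU.VarChange
import Fermat.Agent.S13.CU.DescentIface
import Fermat.Agent.S15.Velu.Defs
import Fermat.Agent.S15.E1.SubLattice

/-!
# PROJECT M (S15), block [E1], leaf (E1-e): transport of Vélu's numbers

* `veluCurve_map` (T1): Vélu's curve commutes with base change along a field homomorphism.
* `veluCurve_smul` (T2): Vélu's curve commutes (exactly) with changes of variables.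
* `veluCurve_shortOf` (T3): for lattices `L ≤ L'` (frame `IsReps L L' R` of `E1/SubLattice`)
  Vélu's curve of `shortOf L` and of the image of `L'` is `shortOf L'`.
* `exists_lattice` (T4): a Weierstrass curve `W` over a field `K` with an embedding `i : K →+* ℂ`,
  `Δ ≠ 0`, and a finite subgroup `C` of `W(K)`: there are a period pair `L` and a subgroup
  `L ≤ M ≤ ℂ` of index `#C` with `i (j W) = j(L)` and `i (veluJ W C) = j(L')` for every period
  pair `L'` with lattice `M`.
-/

set_option autoImplicit false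

noncomputable section

namespace Fermat.Agent.S15.E1.Transport

open WeierstrassCurve
open Fermat.Agent.S15.Velu Fermat.Agent.S13.Local.NodalInst

/-! ### Vélu-type curves -/

section veluOf

variable {K : Type*} [Field K]

/-- The curve `(a₁, a₂, a₃, a₄ - 5 t, a₆ - b₂ t - 7 w)`. -/
def veluOf (W : WeierstrassCurve K) (t w : K) : WeierstrassCurve K :=
  ⟨W.a₁, W.a₂, W.a₃, W.a₄ - 5 * t, W.a₆ - W.b₂ * t - 7 * w⟩

theorem tTerm_def (W : WeierstrassCurve K) (x : K) :
    tTerm W x = 6 * x ^ 2 + W.b₂ * x + W.b₄ := rfl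

theorem wTerm_def (W : WeierstrassCurve K) (x : K) :
    wTerm W x = 10 * x ^ 3 + 2 * W.b₂ * x ^ 2 + 3 * W.b₄ * x + W.b₆ := rfl

theorem veluCurve_eq_veluOf (W : WeierstrassCurve K) (C : Set W.toAffine.Point) :
    veluCurve W C = veluOf W (veluT W C) (veluW W C) := rfl

theorem veluOf_c₄ (W : WeierstrassCurve K) (t w : K) : (veluOf W t w).c₄ = W.c₄ + 240 * t := by
  simp only [veluOf, WeierstrassCurve.c₄, WeierstrassCurve.b₂, WeierstrassCurve.b₄]
  ring

theorem veluOf_c₆ (W : WeierstrassCurve K) (t w : K) :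
    (veluOf W t w).c₆ = W.c₆ + 504 * W.b₂ * t + 6048 * w := by
  simp only [veluOf, WeierstrassCurve.c₆, WeierstrassCurve.b₂, WeierstrassCurve.b₄,
    WeierstrassCurve.b₆]
  ring

/-- Vélu-type curves commute with changes of variables. -/
theorem veluOf_smul (W : WeierstrassCurve K) (V : VariableChange K) (t w : K) :
    veluOf (V • W) (((V.u : K) ^ 4)⁻¹ * t) (((V.u : K) ^ 6)⁻¹ * (w - V.r * t))
      = V • veluOf W t w := by
  have hu : (V.u : K) ≠ 0 := V.u.ne_zero
  ext
  · simp only [veluOf, variableChange_a₁]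
  · simp only [veluOf, variableChange_a₂]
  · simp only [veluOf, variableChange_a₃]
  · simp only [veluOf, variableChange_a₄, Units.val_inv_eq_inv_val]
    field_simp
    ring
  · simp only [veluOf, variableChange_a₆, variableChange_a₁, variableChange_a₂,
      Units.val_inv_eq_inv_val, WeierstrassCurve.b₂]
    field_simp
    ring

/-- Vélu-type curves commute with base change. -/
theorem veluOf_map {L : Type*} [Field L] (i : K →+* L) (W : WeierstrassCurve K) (t w : K) :
    veluOf (W.map i) (i t) (i w) = (veluOf W t w).map i := by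
  ext <;> simp [veluOf, WeierstrassCurve.map, WeierstrassCurve.b₂, map_ofNat]

theorem tTerm_smul (W : WeierstrassCurve K) (V : VariableChange K) (x : K) :
    tTerm (V • W) x = ((V.u : K) ^ 4)⁻¹ * tTerm W ((V.u : K) ^ 2 * x + V.r) := by
  have hu : (V.u : K) ≠ 0 := V.u.ne_zero
  simp only [tTerm_def, variableChange_b₂, variableChange_b₄, Units.val_inv_eq_inv_val]
  field_simp
  ring

theorem wTerm_smul (W : WeierstrassCurve K) (V : VariableChange K) (x : K) :
    wTerm (V • W) x = ((V.u : K) ^ 6)⁻¹ *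
      (wTerm W ((V.u : K) ^ 2 * x + V.r) - V.r * tTerm W ((V.u : K) ^ 2 * x + V.r)) := by
  have hu : (V.u : K) ≠ 0 := V.u.ne_zero
  simp only [wTerm_def, tTerm_def, variableChange_b₂, variableChange_b₄, variableChange_b₆,
    Units.val_inv_eq_inv_val]
  field_simp
  ring

theorem tTerm_map {L : Type*} [Field L] (i : K →+* L) (W : WeierstrassCurve K) (x : K) :
    tTerm (W.map i) (i x) = i (tTerm W x) := by
  simp [tTerm_def, WeierstrassCurve.map_b₂, WeierstrassCurve.map_b₄, map_ofNat]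

theorem wTerm_map {L : Type*} [Field L] (i : K →+* L) (W : WeierstrassCurve K) (x : K) :
    wTerm (W.map i) (i x) = i (wTerm W x) := by
  simp [wTerm_def, WeierstrassCurve.map_b₂, WeierstrassCurve.map_b₄, WeierstrassCurve.map_b₆,
    map_ofNat]

end veluOf

/-! ### (T1) base change -/

section map

open Fermat.Agent.S13.CU.DescentIface

variable {K L : Type*} [Field K] [Field L] [DecidableEq K] [DecidableEq L]
variable (i : K →+* L) (W : WeierstrassCurve K)

theorem map_finsum_mem_of_injective {α M N : Type*} [AddCommMonoid M] [AddCommMonoid N]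
    (g : M →+ N) (hg : Function.Injective g) (s : Set α) (f : α → M) :
    g (∑ᶠ a ∈ s, f a) = ∑ᶠ a ∈ s, g (f a) := by
  rw [g.map_finsum_of_injective hg]
  refine finsum_congr fun a => ?_
  rw [g.map_finsum_of_injective hg]

theorem ptX_mapPoint (P : W.toAffine.Point) :
    ptX (W.map i) (mapPoint i W P) = i (ptX W P) := by
  cases P with
  | zero => exact (map_zero i).symm
  | some x y h => rfl

theorem image_diff_zero (C : Set W.toAffine.Point) :
    (mapPoint i W '' C) \ {0} = mapPoint i W '' (C \ {0}) := by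
  ext Q
  constructor
  · rintro ⟨⟨P, hP, rfl⟩, h0⟩
    refine ⟨P, ⟨hP, fun h => h0 ?_⟩, rfl⟩
    rw [Set.mem_singleton_iff] at h ⊢
    rw [h, map_zero]
  · rintro ⟨P, ⟨hP, h0⟩, rfl⟩
    refine ⟨⟨P, hP, rfl⟩, fun h => h0 ?_⟩
    rw [Set.mem_singleton_iff] at h ⊢
    exact (mapPoint_eq_zero_iff i W P).mp h

/-- sums of functions of the `x`-coordinate commute with base change -/
theorem finsum_mapPoint (C : Set W.toAffine.Point) (g : K → K) (g' : L → L)
    (hg : ∀ x, g' (i x) = i (g x)) :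
    ∑ᶠ Q ∈ (mapPoint i W '' C) \ {0}, g' (ptX (W.map i) Q)
      = i (∑ᶠ P ∈ C \ {0}, g (ptX W P)) := by
  have h := map_finsum_mem_of_injective i.toAddMonoidHom i.injective (C \ {0})
    (fun P => g (ptX W P))
  rw [image_diff_zero, finsum_mem_image ((mapPoint_injective i W).injOn)]
  refine Eq.trans (finsum_mem_congr rfl fun P _ => ?_) h.symm
  rw [ptX_mapPoint, hg]
  rfl

theorem veluT_map (C : Set W.toAffine.Point) :
    veluT (W.map i) (mapPoint i W '' C) = i (veluT W C) := by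
  unfold veluT
  rw [finsum_mapPoint i W C (tTerm W) (tTerm (W.map i)) (tTerm_map i W), map_div₀, map_ofNat]

theorem veluW_map (C : Set W.toAffine.Point) :
    veluW (W.map i) (mapPoint i W '' C) = i (veluW W C) := by
  unfold veluW
  rw [finsum_mapPoint i W C (wTerm W) (wTerm (W.map i)) (wTerm_map i W), map_div₀, map_ofNat]

/-- **(T1)** Vélu's curve commutes with base change. -/
theorem veluCurve_map (C : Set W.toAffine.Point) :
    veluCurve (W.map i) (mapPoint i W '' C) = (veluCurve W C).map i := by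
  rw [veluCurve_eq_veluOf, veluCurve_eq_veluOf, veluT_map, veluW_map, veluOf_map]

theorem veluCurve_map_Δ (C : Set W.toAffine.Point) :
    (veluCurve (W.map i) (mapPoint i W '' C)).Δ = i (veluCurve W C).Δ := by
  rw [veluCurve_map, WeierstrassCurve.map_Δ]

/-- **(T1)** Vélu's `j` commutes with base change. -/
theorem veluJ_map (C : Set W.toAffine.Point) :
    veluJ (W.map i) (mapPoint i W '' C) = i (veluJ W C) := by
  unfold veluJ
  rw [veluCurve_map, WeierstrassCurve.map_Δ, WeierstrassCurve.map_c₄, map_div₀, map_pow]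

end map

/-! ### (T2) change of variables -/

section smul

open Fermat.Agent.S13.CU.VarChange

variable {K : Type*} [Field K] [DecidableEq K] (W : WeierstrassCurve K) (V : VariableChange K)

theorem ptX_pointEquiv {P : (V • W).toAffine.Point} (hP : P ≠ 0) :
    ptX W (pointEquiv W V P) = (V.u : K) ^ 2 * ptX (V • W) P + V.r := by
  cases P with
  | zero => exact absurd rfl hP
  | some x y h => rfl

theorem preimage_diff_zero (C : Set W.toAffine.Point) :
    (pointEquiv W V ⁻¹' C) \ {0} = pointEquiv W V ⁻¹' (C \ {0}) := by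
  ext P
  simp only [Set.mem_sdiff, Set.mem_preimage, Set.mem_singleton_iff,
    AddEquiv.map_eq_zero_iff]

theorem bijOn_pointEquiv (S : Set W.toAffine.Point) :
    Set.BijOn (pointEquiv W V) (pointEquiv W V ⁻¹' S) S :=
  ⟨fun _ hx => hx, (pointEquiv W V).injective.injOn,
    fun y hy => ⟨(pointEquiv W V).symm y, by simpa using hy, by simp⟩⟩

theorem veluT_smul (C : Set W.toAffine.Point) :
    veluT (V • W) (pointEquiv W V ⁻¹' C) = ((V.u : K) ^ 4)⁻¹ * veluT W C := by
  unfold veluT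
  rw [preimage_diff_zero, mul_div_assoc', mul_finsum_mem]
  congr 1
  refine finsum_mem_eq_of_bijOn (pointEquiv W V) (bijOn_pointEquiv W V _) fun P hP => ?_
  have hP0 : P ≠ 0 := fun h => hP.2 (by rw [h, map_zero]; rfl)
  rw [tTerm_smul, ptX_pointEquiv W V hP0]

theorem veluW_smul (C : Set W.toAffine.Point) (hC : C.Finite) :
    veluW (V • W) (pointEquiv W V ⁻¹' C)
      = ((V.u : K) ^ 6)⁻¹ * (veluW W C - V.r * veluT W C) := by
  have hfin : (C \ {0}).Finite := hC.subset Set.sdiff_subset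
  have key : ∑ᶠ P ∈ pointEquiv W V ⁻¹' (C \ {0}), wTerm (V • W) (ptX (V • W) P)
      = ((V.u : K) ^ 6)⁻¹ * (∑ᶠ P ∈ C \ {0}, wTerm W (ptX W P)
        - V.r * ∑ᶠ P ∈ C \ {0}, tTerm W (ptX W P)) := by
    rw [mul_finsum_mem, ← finsum_mem_sub_distrib _ _ hfin, mul_finsum_mem]
    refine finsum_mem_eq_of_bijOn (pointEquiv W V) (bijOn_pointEquiv W V _) fun P hP => ?_
    have hP0 : P ≠ 0 := fun h => hP.2 (by rw [h, map_zero]; rfl)
    rw [wTerm_smul, ptX_pointEquiv W V hP0]
  unfold veluW veluT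
  rw [preimage_diff_zero, key]
  ring

/-- **(T2)** Vélu's curve commutes with changes of variables. -/
theorem veluCurve_smul (C : Set W.toAffine.Point) (hC : C.Finite) :
    veluCurve (V • W) (pointEquiv W V ⁻¹' C) = V • veluCurve W C := by
  rw [veluCurve_eq_veluOf, veluCurve_eq_veluOf, veluT_smul, veluW_smul W V C hC, veluOf_smul]

/-- **(T2)** Vélu's `j` is invariant under changes of variables. -/
theorem veluJ_smul (C : Set W.toAffine.Point) (hC : C.Finite) :
    veluJ (V • W) (pointEquiv W V ⁻¹' C) = veluJ W C := by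
  have hu : (V.u : K) ≠ 0 := V.u.ne_zero
  unfold veluJ
  rw [veluCurve_smul W V C hC, variableChange_c₄, variableChange_Δ, Units.val_inv_eq_inv_val]
  by_cases hΔ : (veluCurve W C).Δ = 0
  · rw [hΔ, mul_zero, div_zero, div_zero]
  · field_simp

end smul

/-! ### (T3) the short model of a lattice -/

section shortOf

open Fermat.Agent.S13.CU.Defs Fermat.Agent.S13.CU Fermat.Agent.S15.E1.SubLattice
open scoped PeriodPair

variable {L L' : PeriodPair} {R : Finset ℂ}

theorem ptX_toPoint {z : ℂ} (hz : z ∉ L.lattice) :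
    ptX (shortOf L) (UnifIso.toPoint L z) = ℘[L] z := by
  rw [UnifIso.toPoint_of_not_mem L hz]
  rfl

/-- The non-zero points of the image of `L'` are the images of the representatives. -/
theorem image_lattice_diff_zero (h : IsReps L L' R) :
    (UnifIso.toPoint L '' (L'.lattice : Set ℂ)) \ {0} = UnifIso.toPoint L '' (R : Set ℂ) := by
  ext Q
  constructor
  · rintro ⟨⟨z, hz, rfl⟩, h0⟩
    have hzL : z ∉ L.lattice := fun hh => h0 (by
      rw [Set.mem_singleton_iff]; exact UnifIso.toPoint_of_mem L hh)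
    obtain ⟨r, hr, hzr⟩ := h.exists_rep z hz hzL
    exact ⟨r, hr, ((UnifIso.toPoint_eq_iff L).mpr hzr).symm⟩
  · rintro ⟨r, hr, rfl⟩
    refine ⟨⟨r, h.mem r hr, rfl⟩, fun h0 => h.notMem r hr ?_⟩
    rw [Set.mem_singleton_iff] at h0
    exact (UnifIso.toPoint_eq_zero_iff L).mp h0

theorem injOn_reps (h : IsReps L L' R) : Set.InjOn (UnifIso.toPoint L) (R : Set ℂ) := by
  intro r hr r' hr' heq
  exact h.unique r hr r' hr' ((UnifIso.toPoint_eq_iff L).mp heq)

theorem finsum_shortOf (h : IsReps L L' R) (g : ℂ → ℂ) :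
    ∑ᶠ Q ∈ (UnifIso.toPoint L '' (L'.lattice : Set ℂ)) \ {0}, g (ptX (shortOf L) Q)
      = ∑ r ∈ R, g (℘[L] r) := by
  rw [image_lattice_diff_zero h, finsum_mem_image (injOn_reps h), finsum_mem_coe_finset]
  refine Finset.sum_congr rfl fun r hr => ?_
  rw [ptX_toPoint (h.notMem r hr)]

theorem tTerm_shortOf (L : PeriodPair) (x : ℂ) : tTerm (shortOf L) x = 6 * x ^ 2 - L.g₂ / 2 := by
  simp only [tTerm_def, WeierstrassCurve.b₂, WeierstrassCurve.b₄, shortOf_a₁, shortOf_a₂, shortOf_a₃,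
    shortOf_a₄]
  ring

theorem wTerm_shortOf (L : PeriodPair) (x : ℂ) :
    wTerm (shortOf L) x = 10 * x ^ 3 - 3 / 2 * L.g₂ * x - L.g₃ := by
  simp only [wTerm_def, WeierstrassCurve.b₂, WeierstrassCurve.b₄, WeierstrassCurve.b₆, shortOf_a₁,
    shortOf_a₂, shortOf_a₃, shortOf_a₄, shortOf_a₆]
  ring

/-- **(T3)** Vélu's curve of `shortOf L` and the image of a bigger lattice `L'` is `shortOf L'`. -/
theorem veluCurve_shortOf (h : IsReps L L' R) :
    veluCurve (shortOf L) (UnifIso.toPoint L '' (L'.lattice : Set ℂ)) = shortOf L' := by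
  have hT : veluT (shortOf L) (UnifIso.toPoint L '' (L'.lattice : Set ℂ))
      = (∑ r ∈ R, (6 * ℘[L] r ^ 2 - L.g₂ / 2)) / 2 := by
    unfold veluT
    rw [finsum_shortOf h (tTerm (shortOf L))]
    congr 1
    exact Finset.sum_congr rfl fun r _ => tTerm_shortOf L _
  have hW : veluW (shortOf L) (UnifIso.toPoint L '' (L'.lattice : Set ℂ))
      = (∑ r ∈ R, (140 * ℘[L] r ^ 3 - 21 * L.g₂ * ℘[L] r - 14 * L.g₃)) / 28 := by
    unfold veluW
    rw [finsum_shortOf h (wTerm (shortOf L)), div_eq_div_iff (by norm_num) (by norm_num),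
      Finset.sum_mul, Finset.sum_mul]
    refine Finset.sum_congr rfl fun r _ => ?_
    rw [wTerm_shortOf]
    ring
  ext
  · rfl
  · rfl
  · rfl
  · show (shortOf L).a₄ - 5 * veluT (shortOf L) _ = -L'.g₂ / 4
    rw [hT, h.g₂_eq', shortOf_a₄]
    ring
  · show (shortOf L).a₆ - (shortOf L).b₂ * veluT (shortOf L) _ - 7 * veluW (shortOf L) _
      = -L'.g₃ / 4
    rw [hW, h.g₃_eq, shortOf_a₆]
    simp only [WeierstrassCurve.b₂, shortOf_a₁, shortOf_a₂]
    ring

theorem shortOf_c₄ (L : PeriodPair) : (shortOf L).c₄ = 12 * L.g₂ := by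
  simp only [WeierstrassCurve.c₄, WeierstrassCurve.b₂, WeierstrassCurve.b₄, shortOf_a₁,
    shortOf_a₂, shortOf_a₃, shortOf_a₄]
  ring

/-- `c₄³/Δ` of the short model is `1728 g₂³ / (g₂³ - 27 g₃²)`. -/
theorem shortOf_j (L : PeriodPair) :
    (shortOf L).c₄ ^ 3 / (shortOf L).Δ = 1728 * L.g₂ ^ 3 / (L.g₂ ^ 3 - 27 * L.g₃ ^ 2) := by
  rw [shortOf_c₄, shortOf_Δ]
  congr 1
  ring

end shortOf

/-! ### (T5) the uniformisation package: coordinates of the points -/

section unif

open Fermat.Agent.S13.CU.Defs Fermat.Agent.S13.CU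
open Fermat.Agent.S13.CU.DescentIface
open scoped PeriodPair

theorem ptY_pointEquiv {K : Type*} [Field K] [DecidableEq K] (W : WeierstrassCurve K)
    (V : VariableChange K) {P : (V • W).toAffine.Point} (hP : P ≠ 0) :
    ptY W (VarChange.pointEquiv W V P)
      = (V.u : K) ^ 3 * ptY (V • W) P + (V.u : K) ^ 2 * V.s * ptX (V • W) P + V.t := by
  cases P with
  | zero => exact absurd rfl hP
  | some x y h => rfl

theorem ptY_toPoint {L : PeriodPair} {z : ℂ} (hz : z ∉ L.lattice) :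
    ptY (shortOf L) (UnifIso.toPoint L z) = ℘'[L] z / 2 := by
  rw [UnifIso.toPoint_of_not_mem L hz]
  rfl

theorem ptY_mapPoint {K L : Type*} [Field K] [Field L] [DecidableEq K] [DecidableEq L]
    (i : K →+* L) (W : WeierstrassCurve K) (P : W.toAffine.Point) :
    ptY (W.map i) (mapPoint i W P) = i (ptY W P) := by
  cases P with
  | zero => exact (map_zero i).symm
  | some x y h => rfl

/-- composition of a parametrisation of `V • W₀` with the change of variables -/
theorem exists_unif_aux (W₀ : WeierstrassCurve ℂ) (V : VariableChange ℂ) (W' : WeierstrassCurve ℂ)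
    (hW' : V • W₀ = W') (f : ℂ →+ W'.toAffine.Point) :
    ∃ π : ℂ →+ W₀.toAffine.Point, (∀ z, π z = 0 ↔ f z = 0) ∧
      (Function.Surjective f → Function.Surjective π) ∧
      ∀ z, f z ≠ 0 → ptX W₀ (π z) = (V.u : ℂ) ^ 2 * ptX W' (f z) + V.r ∧
        ptY W₀ (π z) = (V.u : ℂ) ^ 3 * ptY W' (f z) + (V.u : ℂ) ^ 2 * V.s * ptX W' (f z) + V.t := by
  subst hW'
  refine ⟨(VarChange.pointEquiv W₀ V).toAddMonoidHom.comp f, fun z => ?_, fun hf => ?_,
    fun z hz => ⟨?_, ?_⟩⟩
  · exact (VarChange.pointEquiv W₀ V).map_eq_zero_iff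
  · exact (VarChange.pointEquiv W₀ V).surjective.comp hf
  · exact ptX_pointEquiv W₀ V hz
  · exact ptY_pointEquiv W₀ V hz

/-- **(T5)** Uniformisation of a curve over `ℂ` with the coordinates of the points: there are a
period pair `L`, a change of variables `V` with `V • W = shortOf L` and a surjection
`π : ℂ → W(ℂ)` with kernel `L`, `x(π z) = u² ℘(z) + r`, `y(π z) = u³ ℘'(z)/2 + u² s ℘(z) + t`. -/
theorem exists_unif (W : WeierstrassCurve ℂ) (hΔ : W.Δ ≠ 0) :
    ∃ (L : PeriodPair) (V : VariableChange ℂ) (π : ℂ →+ W.toAffine.Point),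
      V • W = shortOf L ∧ Function.Surjective π ∧ (∀ z, π z = 0 ↔ z ∈ L.lattice) ∧
      ∀ z, z ∉ L.lattice →
        ptX W (π z) = (V.u : ℂ) ^ 2 * ℘[L] z + V.r ∧
        ptY W (π z) = (V.u : ℂ) ^ 3 * (℘'[L] z / 2) + (V.u : ℂ) ^ 2 * V.s * ℘[L] z + V.t := by
  obtain ⟨L, V, hV⟩ := Uniformize.exists_variableChange W hΔ
  obtain ⟨π, h0, hsurj, hxy⟩ := exists_unif_aux W V (shortOf L) hV (UnifIso.toPoint L)
  refine ⟨L, V, π, hV, hsurj (UnifIso.toPoint_surjective L),
    fun z => (h0 z).trans (UnifIso.toPoint_eq_zero_iff L), fun z hz => ?_⟩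
  have hz' : UnifIso.toPoint L z ≠ 0 := fun h => hz ((UnifIso.toPoint_eq_zero_iff L).mp h)
  obtain ⟨hx, hy⟩ := hxy z hz'
  rw [ptX_toPoint hz] at hx hy
  rw [ptY_toPoint hz] at hy
  exact ⟨hx, hy⟩

/-- The dictionary of the invariants and of Vélu's point quantities under a uniformisation. -/
theorem unif_dict {W : WeierstrassCurve ℂ} {L : PeriodPair} {V : VariableChange ℂ}
    (hV : V • W = shortOf L) :
    W.c₄ = (V.u : ℂ) ^ 4 * (12 * L.g₂) ∧
    W.Δ = (V.u : ℂ) ^ 12 * (L.g₂ ^ 3 - 27 * L.g₃ ^ 2) ∧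
    (∀ x : ℂ, tTerm W ((V.u : ℂ) ^ 2 * x + V.r) = (V.u : ℂ) ^ 4 * (6 * x ^ 2 - L.g₂ / 2)) ∧
    (∀ x : ℂ, wTerm W ((V.u : ℂ) ^ 2 * x + V.r)
      = (V.u : ℂ) ^ 6 * (10 * x ^ 3 - 3 / 2 * L.g₂ * x - L.g₃)
        + V.r * ((V.u : ℂ) ^ 4 * (6 * x ^ 2 - L.g₂ / 2))) ∧
    (∀ x y : ℂ, 2 * ((V.u : ℂ) ^ 3 * y + (V.u : ℂ) ^ 2 * V.s * x + V.t)
      + W.a₁ * ((V.u : ℂ) ^ 2 * x + V.r) + W.a₃ = (V.u : ℂ) ^ 3 * (2 * y)) := by
  have hu : (V.u : ℂ) ≠ 0 := V.u.ne_zero
  have hc4 : (V • W).c₄ = 12 * L.g₂ := by rw [hV, shortOf_c₄]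
  have hD : (V • W).Δ = L.g₂ ^ 3 - 27 * L.g₃ ^ 2 := by rw [hV, shortOf_Δ]
  have ha1 : (V • W).a₁ = 0 := by rw [hV]; rfl
  have ha3 : (V • W).a₃ = 0 := by rw [hV]; rfl
  rw [variableChange_c₄, Units.val_inv_eq_inv_val] at hc4
  rw [variableChange_Δ, Units.val_inv_eq_inv_val] at hD
  rw [variableChange_a₁, Units.val_inv_eq_inv_val] at ha1
  rw [variableChange_a₃, Units.val_inv_eq_inv_val] at ha3
  have ht : ∀ x : ℂ, tTerm W ((V.u : ℂ) ^ 2 * x + V.r)
      = (V.u : ℂ) ^ 4 * (6 * x ^ 2 - L.g₂ / 2) := by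
    intro x
    have h := tTerm_smul W V x
    rw [hV, tTerm_shortOf] at h
    rw [h]
    field_simp
  refine ⟨?_, ?_, ht, ?_, ?_⟩
  · rw [← hc4]; field_simp
  · rw [← hD]; field_simp
  · intro x
    have h := wTerm_smul W V x
    rw [hV, wTerm_shortOf, ht x] at h
    rw [h]
    field_simp
    ring
  · intro x y
    have h1 : W.a₁ + 2 * V.s = 0 := by
      rcases mul_eq_zero.mp ha1 with h | h
      · exact absurd h (inv_ne_zero hu)
      · exact h
    have h3 : W.a₃ + V.r * W.a₁ + 2 * V.t = 0 := by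
      rcases mul_eq_zero.mp ha3 with h | h
      · exact absurd h (pow_ne_zero 3 (inv_ne_zero hu))
      · exact h
    linear_combination ((V.u : ℂ) ^ 2 * x) * h1 + h3

/-- **(T5')** pointwise transport over a field `K` with an embedding into `ℂ`: the invariants of
`W` and Vélu's point quantities `x`, `t = 6x² + b₂x + b₄`, `ψ₂ = 2y + a₁x + a₃`,
`w = 10x³ + 2b₂x² + 3b₄x + b₆` of the points of `W(K)` in terms of `℘`, `℘'` of a lattice. -/
theorem exists_unif_point {K : Type*} [Field K] [DecidableEq K] (W : WeierstrassCurve K)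
    (hΔ : W.Δ ≠ 0) (i : K →+* ℂ) :
    ∃ (L : PeriodPair) (u r : ℂ) (π : ℂ →+ (W.map i).toAffine.Point), u ≠ 0 ∧
      Function.Surjective π ∧ (∀ z, π z = 0 ↔ z ∈ L.lattice) ∧
      i W.c₄ = u ^ 4 * (12 * L.g₂) ∧ i W.Δ = u ^ 12 * (L.g₂ ^ 3 - 27 * L.g₃ ^ 2) ∧
      ∀ (Q : W.toAffine.Point) (z : ℂ), π z = mapPoint i W Q → z ∉ L.lattice →
        i (ptX W Q) = u ^ 2 * ℘[L] z + r ∧
        i (tTerm W (ptX W Q)) = u ^ 4 * (6 * ℘[L] z ^ 2 - L.g₂ / 2) ∧
        i (2 * ptY W Q + W.a₁ * ptX W Q + W.a₃) = u ^ 3 * ℘'[L] z ∧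
        i (wTerm W (ptX W Q)) = u ^ 6 * (10 * ℘[L] z ^ 3 - 3 / 2 * L.g₂ * ℘[L] z - L.g₃)
          + r * (u ^ 4 * (6 * ℘[L] z ^ 2 - L.g₂ / 2)) := by
  have hΔ' : (W.map i).Δ ≠ 0 := by
    rw [WeierstrassCurve.map_Δ]
    exact (map_ne_zero i).mpr hΔ
  obtain ⟨L, V, π, hV, hsurj, hker, hxy⟩ := exists_unif (W.map i) hΔ'
  obtain ⟨hc4, hD, ht, hw, hpsi⟩ := unif_dict hV
  refine ⟨L, V.u, V.r, π, V.u.ne_zero, hsurj, hker, ?_, ?_, fun Q z hz hzL => ?_⟩
  · rw [← hc4, WeierstrassCurve.map_c₄]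
  · rw [← hD, WeierstrassCurve.map_Δ]
  · obtain ⟨hx, hy⟩ := hxy z hzL
    rw [hz, ptX_mapPoint] at hx
    rw [hz, ptY_mapPoint] at hy
    refine ⟨hx, ?_, ?_, ?_⟩
    · rw [← tTerm_map, hx, ht]
    · have h := hpsi (℘[L] z) (℘'[L] z / 2)
      rw [← hx, ← hy, WeierstrassCurve.map_a₁, WeierstrassCurve.map_a₃] at h
      rw [map_add, map_add, map_mul, map_mul, map_ofNat, h]
      ring
    · rw [← wTerm_map, hx, hw]

end unif

/-! ### (T4) the lattice of a curve with a finite subgroup -/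

section main

open Fermat.Agent.S13.CU.Defs Fermat.Agent.S13.CU Fermat.Agent.S15.E1.SubLattice
open Fermat.Agent.S13.CU.DescentIface

/-- A finite subgroup `S` of the short model of `L` is the image of a subgroup `L ≤ M ≤ ℂ` of index
`#S`, and Vélu's curve is the short model of every period pair with lattice `M`. -/
theorem exists_lattice_aux (W' : WeierstrassCurve ℂ) (L : PeriodPair) (hW' : W' = shortOf L)
    (S : AddSubgroup W'.toAffine.Point) :
    ∃ M : AddSubgroup ℂ, L.lattice.toAddSubgroup ≤ M ∧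
      (L.lattice.toAddSubgroup).relIndex M = Nat.card S ∧
      ∀ (L' : PeriodPair) (R : Finset ℂ), L'.lattice.toAddSubgroup = M → IsReps L L' R →
        veluCurve W' (S : Set W'.toAffine.Point) = shortOf L' := by
  subst hW'
  refine ⟨S.comap (UnifIso.toPoint L), ?_, ?_, ?_⟩
  · intro z hz
    rw [AddSubgroup.mem_comap, UnifIso.toPoint_of_mem L hz]
    exact S.zero_mem
  · rw [← UnifIso.ker_toPoint L, AddSubgroup.relIndex_ker,
      AddSubgroup.map_comap_eq_self_of_surjective (UnifIso.toPoint_surjective L)]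
  · intro L' R hL' h
    rw [← veluCurve_shortOf h]
    congr 1
    have hset : (L'.lattice : Set ℂ) = ((S.comap (UnifIso.toPoint L) : AddSubgroup ℂ) : Set ℂ) := by
      rw [← hL']
      rfl
    rw [hset, AddSubgroup.coe_comap, Set.image_preimage_eq _ (UnifIso.toPoint_surjective L)]

variable {K : Type*} [Field K] [DecidableEq K]

/-- **(T4)** the lattices of a curve with a finite subgroup. -/
theorem exists_lattice (W : WeierstrassCurve K) (hΔ : W.Δ ≠ 0) (i : K →+* ℂ)
    (C : AddSubgroup W.toAffine.Point) [Finite C] :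
    ∃ (L : PeriodPair) (M : AddSubgroup ℂ), L.lattice.toAddSubgroup ≤ M ∧
      (L.lattice.toAddSubgroup).relIndex M = Nat.card C ∧
      i (W.c₄ ^ 3 / W.Δ) = 1728 * L.g₂ ^ 3 / (L.g₂ ^ 3 - 27 * L.g₃ ^ 2) ∧
      ∀ (L' : PeriodPair) (R : Finset ℂ), L'.lattice.toAddSubgroup = M → IsReps L L' R →
        (veluCurve W (C : Set W.toAffine.Point)).Δ ≠ 0 ∧
          i (veluJ W (C : Set W.toAffine.Point))
            = 1728 * L'.g₂ ^ 3 / (L'.g₂ ^ 3 - 27 * L'.g₃ ^ 2) := by
  have hΔ' : (W.map i).Δ ≠ 0 := by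
    rw [WeierstrassCurve.map_Δ]
    exact (map_ne_zero i).mpr hΔ
  obtain ⟨L, V, hV⟩ := Uniformize.exists_variableChange (W.map i) hΔ'
  have hu : (V.u : ℂ) ≠ 0 := V.u.ne_zero
  -- the subgroup on the short model
  set Cc : AddSubgroup (W.map i).toAffine.Point := C.map (mapPoint i W) with hCc
  set S : AddSubgroup (V • W.map i).toAffine.Point :=
    Cc.comap (VarChange.pointEquiv (W.map i) V).toAddMonoidHom with hS
  have hCcset : (Cc : Set (W.map i).toAffine.Point)
      = mapPoint i W '' (C : Set W.toAffine.Point) := rfl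
  have hSset : (S : Set (V • W.map i).toAffine.Point)
      = VarChange.pointEquiv (W.map i) V ⁻¹' (mapPoint i W '' (C : Set W.toAffine.Point)) := rfl
  have hCfin : (mapPoint i W '' (C : Set W.toAffine.Point)).Finite :=
    (Set.toFinite (C : Set W.toAffine.Point)).image _
  have hcardS : Nat.card S = Nat.card C := by
    have h1 : Nat.card S = Nat.card Cc :=
      Nat.card_congr ((VarChange.pointEquiv (W.map i) V).toEquiv.subtypeEquiv
        (p := fun P => P ∈ S) (q := fun Q => Q ∈ Cc) (fun _ => Iff.rfl))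
    rw [h1]
    exact Nat.card_congr
      (C.equivMapOfInjective (mapPoint i W) (mapPoint_injective i W)).toEquiv.symm
  obtain ⟨M, hLM, hidx, hM⟩ := exists_lattice_aux (V • W.map i) L hV S
  refine ⟨L, M, hLM, hidx.trans hcardS, ?_, ?_⟩
  · rw [← shortOf_j, ← hV, variableChange_c₄, variableChange_Δ, Units.val_inv_eq_inv_val,
      WeierstrassCurve.map_c₄, WeierstrassCurve.map_Δ, map_div₀, map_pow]
    field_simp
  · intro L' R hL' h
    have hcurve := hM L' R hL' h
    rw [hSset, veluCurve_smul (W.map i) V _ hCfin, veluCurve_map] at hcurve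
    have hdisc : (shortOf L').Δ ≠ 0 := by
      rw [shortOf_Δ]
      exact (UnifIso.addData L').disc
    have hj := shortOf_j L'
    rw [← hcurve, variableChange_c₄, variableChange_Δ, Units.val_inv_eq_inv_val,
      WeierstrassCurve.map_c₄, WeierstrassCurve.map_Δ] at hj
    rw [← hcurve, variableChange_Δ, WeierstrassCurve.map_Δ] at hdisc
    have hne : i (veluCurve W (C : Set W.toAffine.Point)).Δ ≠ 0 := right_ne_zero_of_mul hdisc
    refine ⟨fun h0 => hne (by rw [h0, map_zero]), ?_⟩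
    rw [← hj]
    unfold veluJ
    rw [map_div₀, map_pow]
    field_simp

end main

end Fermat.Agent.S15.E1.Transport
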