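import Mathlib

/-!
# PROJECT M (S15), block [E1] (E1-c): a subgroup of prime order of `ℂ/Λ` is `⟨ω₁/N⟩` for a
suitable basis of `Λ`

* `transformPair L a b c d h` : the period pair `(aω₁ + bω₂, cω₁ + dω₂)`, `ad - bc = 1`, with the
  same lattice;
* `exists_basis_of_card_prime` : for `C ≤ ℂ/Λ` of prime order `N` there is a period pair `L₁` with
  the same lattice, `0 < Im(ω₁/ω₂)`, and `C = ⟨ω₁/N mod Λ⟩`.
-/

set_option autoImplicit false

noncomputable section

namespace Fermat.Agent.S15.E1.CyclicBasis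

variable (L : PeriodPair)

/-- the period pair `(aω₁ + bω₂, cω₁ + dω₂)` for `ad - bc = 1` -/
def transformPair (a b c d : ℤ) (h : a * d - b * c = 1) : PeriodPair where
  ω₁ := a * L.ω₁ + b * L.ω₂
  ω₂ := c * L.ω₁ + d * L.ω₂
  indep := by
    have hL := LinearIndependent.pair_iff.mp L.indep
    refine LinearIndependent.pair_iff.mpr fun s t hst => ?_
    have h1 := hL (s * a + t * c) (s * b + t * d) (by
      rw [← hst]
      simp only [Complex.real_smul, Complex.ofReal_add, Complex.ofReal_mul, Complex.ofReal_intCast]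
      ring)
    have hR : (a : ℝ) * d - b * c = 1 := by exact_mod_cast h
    obtain ⟨e1, e2⟩ := h1
    constructor
    · linear_combination (d : ℝ) * e1 - (c : ℝ) * e2 - s * hR
    · linear_combination (a : ℝ) * e2 - (b : ℝ) * e1 - t * hR

@[simp] theorem transformPair_ω₁ (a b c d : ℤ) (h : a * d - b * c = 1) :
    (transformPair L a b c d h).ω₁ = a * L.ω₁ + b * L.ω₂ := rfl

@[simp] theorem transformPair_ω₂ (a b c d : ℤ) (h : a * d - b * c = 1) :
    (transformPair L a b c d h).ω₂ = c * L.ω₁ + d * L.ω₂ := rfl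

theorem lattice_transformPair (a b c d : ℤ) (h : a * d - b * c = 1) :
    (transformPair L a b c d h).lattice = L.lattice := by
  have hC : (a : ℂ) * d - b * c = 1 := by exact_mod_cast h
  apply le_antisymm
  · rw [PeriodPair.lattice, Submodule.span_le]
    rintro x (rfl | rfl)
    · exact PeriodPair.mem_lattice.mpr ⟨a, b, rfl⟩
    · exact PeriodPair.mem_lattice.mpr ⟨c, d, rfl⟩
  · rw [PeriodPair.lattice, Submodule.span_le]
    rintro x (rfl | rfl)
    · refine PeriodPair.mem_lattice.mpr ⟨d, -b, ?_⟩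
      simp only [transformPair_ω₁, transformPair_ω₂, Int.cast_neg]
      linear_combination L.ω₁ * hC
    · refine PeriodPair.mem_lattice.mpr ⟨-c, a, ?_⟩
      simp only [transformPair_ω₁, transformPair_ω₂, Int.cast_neg]
      linear_combination L.ω₂ * hC

/-- the period pair `(-ω₁, ω₂)` -/
def negPair : PeriodPair where
  ω₁ := -L.ω₁
  ω₂ := L.ω₂
  indep := by
    have hL := LinearIndependent.pair_iff.mp L.indep
    refine LinearIndependent.pair_iff.mpr fun s t hst => ?_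
    have h1 := hL (-s) t (by
      rw [← hst]
      simp only [Complex.real_smul, Complex.ofReal_neg]
      ring)
    exact ⟨by linarith [h1.1], h1.2⟩

@[simp] theorem negPair_ω₁ : (negPair L).ω₁ = -L.ω₁ := rfl
@[simp] theorem negPair_ω₂ : (negPair L).ω₂ = L.ω₂ := rfl

theorem lattice_negPair : (negPair L).lattice = L.lattice := by
  apply le_antisymm
  · rw [PeriodPair.lattice, Submodule.span_le]
    rintro x (rfl | rfl)
    · exact L.lattice.neg_mem L.ω₁_mem_lattice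
    · exact L.ω₂_mem_lattice
  · rw [PeriodPair.lattice, Submodule.span_le]
    rintro x (rfl | rfl)
    · have := (negPair L).lattice.neg_mem (negPair L).ω₁_mem_lattice
      simpa using this
    · exact (negPair L).ω₂_mem_lattice

theorem ω₂_ne_zero : L.ω₂ ≠ 0 := by
  intro h0
  have hL := LinearIndependent.pair_iff.mp L.indep 0 1 (by simp [h0])
  exact one_ne_zero hL.2

theorem im_div_ne_zero : (L.ω₁ / L.ω₂).im ≠ 0 := by
  intro him
  have h2 := ω₂_ne_zero L
  have hre : L.ω₁ / L.ω₂ = ((L.ω₁ / L.ω₂).re : ℂ) := by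
    apply Complex.ext
    · simp
    · simp [him]
  have hL := LinearIndependent.pair_iff.mp L.indep 1 (-(L.ω₁ / L.ω₂).re) (by
    simp only [Complex.real_smul, Complex.ofReal_one, one_mul, Complex.ofReal_neg]
    rw [← hre]
    field_simp
    ring)
  exact one_ne_zero hL.1

/-- a period pair with the same lattice, `ω₁` up to sign, and `0 < Im(ω₁/ω₂)` -/
theorem exists_pos_im :
    ∃ L₁ : PeriodPair, L₁.lattice = L.lattice ∧ (L₁.ω₁ = L.ω₁ ∨ L₁.ω₁ = -L.ω₁) ∧
      0 < (L₁.ω₁ / L₁.ω₂).im := by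
  rcases lt_or_gt_of_ne (im_div_ne_zero L) with hneg | hpos
  · refine ⟨negPair L, lattice_negPair L, Or.inr rfl, ?_⟩
    simp only [negPair_ω₁, negPair_ω₂, neg_div, Complex.neg_im]
    linarith
  · exact ⟨L, rfl, Or.inl rfl, hpos⟩

variable {L}

/-- the membership criterion once `ω₁/N` generates `C` -/
theorem mem_iff_of_generator {N : ℕ} [hN : Fact N.Prime]
    {C : AddSubgroup (ℂ ⧸ L.lattice.toAddSubgroup)} (hC : Nat.card C = N) {w : ℂ}
    (hwC : (w : ℂ ⧸ L.lattice.toAddSubgroup) ∈ C) (hw : w ∉ L.lattice) (z : ℂ) :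
    (z : ℂ ⧸ L.lattice.toAddSubgroup) ∈ C ↔ ∃ k : ℤ, z - k * w ∈ L.lattice := by
  have hg : (⟨(w : ℂ ⧸ L.lattice.toAddSubgroup), hwC⟩ : C) ≠ 0 := by
    intro h0
    apply hw
    have : (w : ℂ ⧸ L.lattice.toAddSubgroup) = 0 := congrArg Subtype.val h0
    exact (QuotientAddGroup.eq_zero_iff w).mp this
  constructor
  · intro hz
    have hmem := mem_zmultiples_of_prime_card (G := C) hC (g := ⟨_, hwC⟩) (g' := ⟨_, hz⟩) hg
    obtain ⟨k, hk⟩ := AddSubgroup.mem_zmultiples_iff.mp hmem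
    refine ⟨k, ?_⟩
    have hk' : k • (w : ℂ ⧸ L.lattice.toAddSubgroup) = (z : ℂ ⧸ L.lattice.toAddSubgroup) := by
      have := congrArg Subtype.val hk
      simpa using this
    have h2 : ((z - k * w : ℂ) : ℂ ⧸ L.lattice.toAddSubgroup) = 0 := by
      rw [QuotientAddGroup.mk_sub, ← hk', ← zsmul_eq_mul, QuotientAddGroup.mk_zsmul, sub_self]
    exact (QuotientAddGroup.eq_zero_iff _).mp h2
  · rintro ⟨k, hk⟩
    have h2 : ((z - k * w : ℂ) : ℂ ⧸ L.lattice.toAddSubgroup) = 0 :=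
      (QuotientAddGroup.eq_zero_iff _).mpr hk
    rw [QuotientAddGroup.mk_sub, sub_eq_zero, ← zsmul_eq_mul, QuotientAddGroup.mk_zsmul] at h2
    rw [h2]
    exact C.zsmul_mem hwC k

/-- **The basis lemma.** -/
theorem exists_basis_of_card_prime (L : PeriodPair) {N : ℕ} [hN : Fact N.Prime]
    (C : AddSubgroup (ℂ ⧸ L.lattice.toAddSubgroup)) (hC : Nat.card C = N) :
    ∃ L₁ : PeriodPair, L₁.lattice = L.lattice ∧ 0 < (L₁.ω₁ / L₁.ω₂).im ∧
      L₁.ω₁ / N ∉ L.lattice ∧
      ∀ z : ℂ, ((z : ℂ ⧸ L.lattice.toAddSubgroup) ∈ C ↔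
        ∃ k : ℤ, z - k * (L₁.ω₁ / N) ∈ L.lattice) := by
  classical
  have hNpos : 0 < N := hN.1.pos
  have hNC : (N : ℂ) ≠ 0 := Nat.cast_ne_zero.mpr hNpos.ne'
  have : Finite C := Nat.finite_of_card_ne_zero (by rw [hC]; exact hNpos.ne')
  -- a nonzero element of `C`
  have hcard1 : 1 < Nat.card C := by rw [hC]; exact hN.1.one_lt
  have : Nontrivial C := (Finite.one_lt_card_iff_nontrivial).mp hcard1
  obtain ⟨g, hg⟩ := exists_ne (0 : C)
  obtain ⟨z₀, hz₀⟩ := QuotientAddGroup.mk_surjective (g : ℂ ⧸ L.lattice.toAddSubgroup)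
  have hz₀C : (z₀ : ℂ ⧸ L.lattice.toAddSubgroup) ∈ C := by rw [hz₀]; exact g.2
  have hz₀L : z₀ ∉ L.lattice := by
    intro hmem
    apply hg
    apply Subtype.ext
    rw [← hz₀]
    exact (QuotientAddGroup.eq_zero_iff z₀).mpr hmem
  -- `N z₀ ∈ L`
  have hNz₀ : (N : ℂ) * z₀ ∈ L.lattice := by
    have h1 : N • g = 0 := by
      rw [← hC]
      exact card_nsmul_eq_zero'
    have h2 : N • (z₀ : ℂ ⧸ L.lattice.toAddSubgroup) = 0 := by
      rw [hz₀]
      have := congrArg Subtype.val h1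
      simpa using this
    rw [← QuotientAddGroup.mk_nsmul, QuotientAddGroup.eq_zero_iff] at h2
    simpa [nsmul_eq_mul] using h2
  obtain ⟨m, n, hmn⟩ := PeriodPair.mem_lattice.mp hNz₀
  -- `N` does not divide both `m` and `n`
  have hnd : ¬ ((N : ℤ) ∣ m ∧ (N : ℤ) ∣ n) := by
    rintro ⟨⟨m', rfl⟩, ⟨n', rfl⟩⟩
    apply hz₀L
    refine PeriodPair.mem_lattice.mpr ⟨m', n', ?_⟩
    have : (N : ℂ) * (m' * L.ω₁ + n' * L.ω₂) = N * z₀ := by
      rw [← hmn]; push_cast; ring
    exact mul_left_cancel₀ hNC this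
  set d : ℤ := (Int.gcd m n : ℤ) with hd
  have hd0 : Int.gcd m n ≠ 0 := by
    intro h0
    rw [Int.gcd_eq_zero_iff] at h0
    apply hnd
    rw [h0.1, h0.2]
    exact ⟨dvd_zero _, dvd_zero _⟩
  have hNd : ¬ (N : ℤ) ∣ d := fun hdvd =>
    hnd ⟨hdvd.trans (Int.gcd_dvd_left m n), hdvd.trans (Int.gcd_dvd_right m n)⟩
  obtain ⟨m', n', hg1, hm'0, hn'0⟩ := Int.exists_gcd_one (Nat.pos_of_ne_zero hd0)
  have hm' : m = (Int.gcd m n : ℤ) * m' := by rw [mul_comm]; exact hm'0
  have hn' : n = (Int.gcd m n : ℤ) * n' := by rw [mul_comm]; exact hn'0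
  have hcop : IsCoprime m' n' := Int.isCoprime_iff_gcd_eq_one.mpr hg1
  obtain ⟨u, v, huv⟩ := hcop
  -- the new basis: `ω₁' = m' ω₁ + n' ω₂`, `ω₂' = -v ω₁ + u ω₂`
  have hdet : m' * u - n' * (-v) = 1 := by linear_combination huv
  set L₀ := transformPair L m' n' (-v) u hdet with hL₀
  have hL₀lat : L₀.lattice = L.lattice := lattice_transformPair L _ _ _ _ hdet
  -- `k d ≡ 1 mod N`
  have hcopN : IsCoprime d (N : ℤ) := by
    have hp : Prime (N : ℤ) := Nat.prime_iff_prime_int.mp hN.1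
    exact (IsCoprime.symm ((Prime.coprime_iff_not_dvd hp).mpr hNd))
  obtain ⟨k, s, hks⟩ := hcopN
  -- `k z₀ ≡ ω₁'/N`
  have hNz₀' : (N : ℂ) * z₀ = d * L₀.ω₁ := by
    rw [← hmn, hL₀, transformPair_ω₁]
    have e1 : (m : ℂ) = d * m' := by rw [hd]; exact_mod_cast hm'
    have e2 : (n : ℂ) = d * n' := by rw [hd]; exact_mod_cast hn'
    rw [e1, e2]; ring
  have hksC : (k : ℂ) * d + s * N = 1 := by exact_mod_cast hks
  have hdiff : (k : ℂ) * z₀ - L₀.ω₁ / N = -s * L₀.ω₁ := by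
    have hz : z₀ = d * L₀.ω₁ / N := by
      rw [← hNz₀']; field_simp
    rw [hz]
    field_simp
    linear_combination L₀.ω₁ * hksC
  have hωL : -(s : ℂ) * L₀.ω₁ ∈ L.lattice := by
    rw [← hL₀lat]
    have := L₀.lattice.smul_mem (-s) L₀.ω₁_mem_lattice
    simpa [zsmul_eq_mul] using this
  -- `ω₁'/N mod L` is in `C` and nonzero
  have hwC : ((L₀.ω₁ / N : ℂ) : ℂ ⧸ L.lattice.toAddSubgroup) ∈ C := by
    have h1 : ((L₀.ω₁ / N : ℂ) : ℂ ⧸ L.lattice.toAddSubgroup)
        = k • (z₀ : ℂ ⧸ L.lattice.toAddSubgroup) := by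
      rw [← QuotientAddGroup.mk_zsmul, eq_comm, QuotientAddGroup.eq, zsmul_eq_mul]
      have : -((k : ℂ) * z₀) + L₀.ω₁ / N = (s : ℂ) * L₀.ω₁ := by linear_combination -hdiff
      rw [this]
      simpa using L.lattice.neg_mem hωL
    rw [h1]
    exact C.zsmul_mem hz₀C k
  have hwL : L₀.ω₁ / N ∉ L.lattice := by
    intro hmem
    -- then `k z₀ ∈ L`, so `z₀ = (k d + s N) z₀ ∈ L`
    have h1 : (k : ℂ) * z₀ ∈ L.lattice := by
      have : (k : ℂ) * z₀ = L₀.ω₁ / N + -s * L₀.ω₁ := by linear_combination hdiff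
      rw [this]
      exact add_mem hmem hωL
    have h2 : (d : ℂ) * ((k : ℂ) * z₀) ∈ L.lattice := by
      have := L.lattice.smul_mem d h1
      simpa [zsmul_eq_mul] using this
    have h3 : (s : ℂ) * ((N : ℂ) * z₀) ∈ L.lattice := by
      have := L.lattice.smul_mem s hNz₀
      simpa [zsmul_eq_mul] using this
    apply hz₀L
    have : z₀ = (d : ℂ) * ((k : ℂ) * z₀) + (s : ℂ) * ((N : ℂ) * z₀) := by
      linear_combination -z₀ * hksC
    rw [this]
    exact add_mem h2 h3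
  -- fix the orientation
  obtain ⟨L₁, hL₁lat, hω, hpos⟩ := exists_pos_im L₀
  refine ⟨L₁, hL₁lat.trans hL₀lat, hpos, ?_, fun z => ?_⟩
  · rcases hω with h | h
    · rw [h]; exact hwL
    · rw [h, neg_div]
      intro hmem
      exact hwL (by simpa using L.lattice.neg_mem hmem)
  · rw [mem_iff_of_generator hC hwC hwL z]
    rcases hω with h | h
    · rw [h]
    · rw [h]
      constructor
      · rintro ⟨j, hj⟩
        exact ⟨-j, by convert hj using 1; push_cast; ring⟩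
      · rintro ⟨j, hj⟩
        exact ⟨-j, by convert hj using 1; push_cast; ring⟩

end Fermat.Agent.S15.E1.CyclicBasis
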