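import Mathlib
import Fermat.Agent.S15.E1.SumInvPow

/-!
# PROJECT M (S15), block [E1], analytic core, part 2

`L = ⟨ω₁, ω₂⟩`, `N ≥ 1`, `divPair L N = ⟨ω₁/N, ω₂⟩` (the lattice `L' ⊇ L` with
`L'/L = ⟨ω₁/N⟩` cyclic of order `N`).

* `G_divPair` : `G_n(L') = ∑_{k < N} ∑_{l ∈ L} (l + k ω₁/N)⁻ⁿ` for `n > 2`;
* `g₂_divPair`, `g₃_divPair` : the invariants of `L'` in terms of those of `L` and the values
  `℘_L(k ω₁/N)`, `0 < k < N`:
  `g₂' = g₂ + ∑_{k ≠ 0} (60 ℘(kω₁/N)² - 5 g₂)`,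
  `g₃' = g₃ + ∑_{k ≠ 0} (140 ℘(kω₁/N)³ - 21 g₂ ℘(kω₁/N) - 14 g₃)`.
-/

set_option autoImplicit false
set_option linter.unusedSectionVars false

noncomputable section

namespace Fermat.Agent.S15.E1.DivPair

open Filter Topology
open Fermat.Agent.S15.E1.SumInvPow

variable (L : PeriodPair) (N : ℕ) [NeZero N]

theorem natCast_ne_zero : (N : ℂ) ≠ 0 := Nat.cast_ne_zero.mpr (NeZero.ne N)

/-- the period pair `⟨ω₁/N, ω₂⟩` -/
def divPair : PeriodPair where
  ω₁ := L.ω₁ / N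
  ω₂ := L.ω₂
  indep := by
    have h := LinearIndependent.pair_iff.mp L.indep
    refine LinearIndependent.pair_iff.mpr fun s t hst => ?_
    have hN : (N : ℝ) ≠ 0 := Nat.cast_ne_zero.mpr (NeZero.ne N)
    have h1 := h (s / N) t (by
      rw [← hst]
      simp only [Complex.real_smul, Complex.ofReal_div, Complex.ofReal_natCast]
      ring)
    exact ⟨(div_eq_zero_iff.mp h1.1).resolve_right hN, h1.2⟩

@[simp] theorem divPair_ω₁ : (divPair L N).ω₁ = L.ω₁ / N := rfl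
@[simp] theorem divPair_ω₂ : (divPair L N).ω₂ = L.ω₂ := rfl

/-- the `k`-th coset representative -/
def rep (k : ℕ) : ℂ := k * L.ω₁ / N

theorem rep_mem_divPair (k : ℕ) : rep L N k ∈ (divPair L N).lattice := by
  rw [PeriodPair.mem_lattice]
  exact ⟨k, 0, by simp [rep]; ring⟩

theorem lattice_le_divPair : L.lattice ≤ (divPair L N).lattice := by
  intro x hx
  obtain ⟨m, n, rfl⟩ := PeriodPair.mem_lattice.mp hx
  rw [PeriodPair.mem_lattice]
  refine ⟨m * N, n, ?_⟩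
  have hN := natCast_ne_zero N
  simp only [divPair_ω₁, divPair_ω₂, Int.cast_mul, Int.cast_natCast]
  field_simp

/-- `k ω₁/N ∈ L ↔ N ∣ k` -/
theorem rep_mem_lattice_iff (k : ℕ) : rep L N k ∈ L.lattice ↔ N ∣ k := by
  have hN := natCast_ne_zero N
  have h := L.mul_ω₁_add_mul_ω₂_mem_lattice (α := (k : ℚ) / N) (β := 0)
  have e : (((k : ℚ) / N : ℚ) : ℂ) * L.ω₁ + ((0 : ℚ) : ℂ) * L.ω₂ = rep L N k := by
    simp only [rep, Rat.cast_div, Rat.cast_natCast, Rat.cast_zero, zero_mul, add_zero]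
    ring
  rw [e] at h
  rw [h]
  simp only [Rat.den_zero, and_true]
  constructor
  · intro hden
    have h2 : ((k : ℚ) / N).den = 1 := hden
    have h3 : ((k : ℚ) / N) = (((k : ℚ) / N).num : ℚ) := by
      conv_lhs => rw [← Rat.num_div_den ((k : ℚ) / N), h2]
      simp
    have hNq : (N : ℚ) ≠ 0 := Nat.cast_ne_zero.mpr (NeZero.ne N)
    have h4 : (k : ℚ) = ((((k : ℚ) / N).num * N : ℤ) : ℚ) := by
      push_cast
      rw [← h3]
      field_simp
    have h5 : (k : ℤ) = ((k : ℚ) / N).num * N := by exact_mod_cast h4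
    have h6 : (N : ℤ) ∣ (k : ℤ) := ⟨_, by rw [h5]; ring⟩
    exact_mod_cast h6
  · rintro ⟨c, rfl⟩
    have hNq : (N : ℚ) ≠ 0 := Nat.cast_ne_zero.mpr (NeZero.ne N)
    have : ((N * c : ℕ) : ℚ) / N = (c : ℚ) := by
      push_cast
      field_simp
    rw [this]
    exact Rat.den_natCast c

theorem rep_notMem_lattice {k : ℕ} (hk0 : 0 < k) (hk : k < N) : rep L N k ∉ L.lattice := by
  rw [rep_mem_lattice_iff]
  exact Nat.not_dvd_of_pos_of_lt hk0 hk

/-! ### sums over a lattice as sums over `ℤ × ℤ` -/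

theorem tsum_lattice (f : ℂ → ℂ) :
    ∑' l : L.lattice, f l = ∑' p : ℤ × ℤ, f (p.1 * L.ω₁ + p.2 * L.ω₂) := by
  rw [← L.latticeEquivProd.symm.toEquiv.tsum_eq]
  refine tsum_congr fun p => ?_
  simp only [LinearEquiv.coe_toEquiv, PeriodPair.latticeEquiv_symm_apply]

theorem summable_lattice_iff (f : ℂ → ℂ) :
    Summable (fun l : L.lattice => f l) ↔
      Summable fun p : ℤ × ℤ => f (p.1 * L.ω₁ + p.2 * L.ω₂) := by
  rw [← L.latticeEquivProd.symm.toEquiv.summable_iff]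
  refine summable_congr fun p => ?_
  simp only [Function.comp_apply, LinearEquiv.coe_toEquiv, PeriodPair.latticeEquiv_symm_apply]

/-- the reindexing `Fin N × (ℤ × ℤ) ≃ ℤ × ℤ`, `(k, (c, b)) ↦ (c N + k, b)` -/
def reindex : Fin N × (ℤ × ℤ) ≃ ℤ × ℤ :=
  ((Equiv.prodAssoc (Fin N) ℤ ℤ).symm.trans
    (Equiv.prodCongr ((Equiv.prodComm (Fin N) ℤ).trans (Int.divModEquiv N).symm)
      (Equiv.refl ℤ)))

theorem reindex_apply (k : Fin N) (c b : ℤ) :
    reindex N (k, (c, b)) = (c * N + (k : ℕ), b) := rfl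

/-- the value of the summand -/
theorem summand_eq (k : Fin N) (c b : ℤ) :
    ((c * N + (k : ℕ) : ℤ) : ℂ) * (L.ω₁ / N) + (b : ℂ) * L.ω₂
      = ((c : ℂ) * L.ω₁ + (b : ℂ) * L.ω₂) - -(rep L N k) := by
  have hN := natCast_ne_zero N
  simp only [rep, Int.cast_add, Int.cast_mul, Int.cast_natCast]
  field_simp
  ring

theorem G_divPair {n : ℕ} (hn : 2 < n) :
    (divPair L N).G n = ∑ k : Fin N, L.sumInvPow (-(rep L N k)) n := by
  have hsum' : Summable fun l : (divPair L N).lattice => (((l : ℂ)) ^ n)⁻¹ := by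
    have h := ((divPair L N).hasSum_sumInvPow 0 hn).summable
    simpa using h
  have hsumZ : Summable fun p : ℤ × ℤ =>
      (((p.1 : ℂ) * (divPair L N).ω₁ + (p.2 : ℂ) * (divPair L N).ω₂) ^ n)⁻¹ :=
    (summable_lattice_iff (divPair L N) fun z => (z ^ n)⁻¹).mp hsum'
  have hsumR : Summable fun q : Fin N × (ℤ × ℤ) =>
      ((((reindex N q).1 : ℂ) * (divPair L N).ω₁ + ((reindex N q).2 : ℂ) * (divPair L N).ω₂) ^ n)⁻¹ :=
    (reindex N).summable_iff.mpr hsumZ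
  have hfib : ∀ k : Fin N, Summable fun p : ℤ × ℤ =>
      ((((p.1 : ℂ) * L.ω₁ + (p.2 : ℂ) * L.ω₂) - -(rep L N k)) ^ n)⁻¹ := by
    intro k
    have h := (L.hasSum_sumInvPow (-(rep L N k)) hn).summable
    exact (summable_lattice_iff L fun z => ((z - -(rep L N k)) ^ n)⁻¹).mp h
  rw [PeriodPair.G, tsum_lattice (divPair L N) fun z => (z ^ n)⁻¹, ← (reindex N).tsum_eq]
  rw [hsumR.tsum_prod' (fun k => ?_), tsum_fintype]
  · refine Finset.sum_congr rfl fun k _ => ?_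
    rw [PeriodPair.sumInvPow, tsum_lattice L fun z => ((z - -(rep L N k)) ^ n)⁻¹]
    refine tsum_congr fun p => ?_
    obtain ⟨c, b⟩ := p
    rw [reindex_apply]
    simp only [divPair_ω₁, divPair_ω₂]
    rw [summand_eq]
  · refine (hfib k).congr fun p => ?_
    obtain ⟨c, b⟩ := p
    rw [reindex_apply]
    simp only [divPair_ω₁, divPair_ω₂]
    rw [summand_eq]

/-- `∑_{l ∈ L} (l - x)⁻ⁿ` at a lattice point `x` is `G_n` -/
theorem sumInvPow_of_mem {x : ℂ} (hx : x ∈ L.lattice) (n : ℕ) :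
    L.sumInvPow x n = L.G n := by
  rw [PeriodPair.sumInvPow, PeriodPair.G]
  let e : L.lattice ≃ L.lattice := Equiv.addRight (⟨x, hx⟩ : L.lattice)
  rw [← e.tsum_eq]
  refine tsum_congr fun l => ?_
  simp [e]

/-- splitting off `k = 0` -/
theorem G_divPair' {n : ℕ} (hn : 2 < n) :
    (divPair L N).G n = L.G n + ∑ k ∈ Finset.Ico 1 N, L.sumInvPow (-(rep L N k)) n := by
  rw [G_divPair L N hn, Fin.sum_univ_eq_sum_range (fun k => L.sumInvPow (-(rep L N k)) n) N,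
    Finset.range_eq_Ico, Finset.sum_eq_sum_Ico_succ_bot (Nat.pos_of_ne_zero (NeZero.ne N))]
  congr 1
  have h0 : rep L N 0 = 0 := by simp [rep]
  rw [h0, neg_zero]
  exact sumInvPow_of_mem L (zero_mem _) n

theorem neg_rep_notMem {k : ℕ} (hk : k ∈ Finset.Ico 1 N) : -(rep L N k) ∉ L.lattice := by
  rw [Finset.mem_Ico] at hk
  intro h
  exact rep_notMem_lattice L N hk.1 hk.2 (by simpa using L.lattice.neg_mem h)

/-- **`g₂` of `⟨ω₁/N, ω₂⟩`.** -/
theorem g₂_divPair :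
    (divPair L N).g₂ = L.g₂ +
      ∑ k ∈ Finset.Ico 1 N, (60 * L.weierstrassP (rep L N k) ^ 2 - 5 * L.g₂) := by
  rw [PeriodPair.g₂, G_divPair' L N (by norm_num), mul_add, Finset.mul_sum, ← PeriodPair.g₂]
  congr 1
  refine Finset.sum_congr rfl fun k hk => ?_
  rw [sumInvPow_four L (neg_rep_notMem L N hk), L.weierstrassP_neg]
  ring

/-- **`g₃` of `⟨ω₁/N, ω₂⟩`.** -/
theorem g₃_divPair :
    (divPair L N).g₃ = L.g₃ +
      ∑ k ∈ Finset.Ico 1 N, (140 * L.weierstrassP (rep L N k) ^ 3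
        - 21 * L.g₂ * L.weierstrassP (rep L N k) - 14 * L.g₃) := by
  rw [PeriodPair.g₃, G_divPair' L N (by norm_num), mul_add, Finset.mul_sum, ← PeriodPair.g₃]
  congr 1
  refine Finset.sum_congr rfl fun k hk => ?_
  rw [sumInvPow_six L (neg_rep_notMem L N hk), L.weierstrassP_neg]
  ring

end Fermat.Agent.S15.E1.DivPair
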