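import Mathlib

/-!
# PROJECT M (S15), block [E1]: the lattice functions only depend on the lattice

`L₁ L₂ : PeriodPair` with `L₁.lattice = L₂.lattice`: `G_n`, `g₂`, `g₃`, `℘`, `℘'` agree.
-/

set_option autoImplicit false

noncomputable section

namespace Fermat.Agent.S15.E1.LatticeCongr

variable {L₁ L₂ : PeriodPair}

theorem tsum_congr_lattice (h : L₁.lattice = L₂.lattice) (f : ℂ → ℂ) :
    ∑' l : L₁.lattice, f l = ∑' l : L₂.lattice, f l :=
  tsum_congr_subtype f fun x => by rw [h]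

theorem G_congr (h : L₁.lattice = L₂.lattice) (n : ℕ) : L₁.G n = L₂.G n :=
  tsum_congr_lattice h fun z => (z ^ n)⁻¹

theorem g₂_congr (h : L₁.lattice = L₂.lattice) : L₁.g₂ = L₂.g₂ := by
  rw [PeriodPair.g₂, PeriodPair.g₂, G_congr h]

theorem g₃_congr (h : L₁.lattice = L₂.lattice) : L₁.g₃ = L₂.g₃ := by
  rw [PeriodPair.g₃, PeriodPair.g₃, G_congr h]

theorem weierstrassP_congr (h : L₁.lattice = L₂.lattice) (z : ℂ) :
    L₁.weierstrassP z = L₂.weierstrassP z :=
  tsum_congr_lattice h fun l => 1 / (z - l) ^ 2 - 1 / l ^ 2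

theorem derivWeierstrassP_congr (h : L₁.lattice = L₂.lattice) (z : ℂ) :
    L₁.derivWeierstrassP z = L₂.derivWeierstrassP z := by
  rw [PeriodPair.derivWeierstrassP, PeriodPair.derivWeierstrassP]
  congr 1
  exact tsum_congr_lattice h fun l => 2 / (z - l) ^ 3

end Fermat.Agent.S15.E1.LatticeCongr
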