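import Mathlib
import Fermat.Agent.S13.CU.LatticeOfInvariants
import Fermat.Agent.S15.E1.DivPair
import Fermat.Prelude.Def_ModularForm_HeckeOperator

/-!
# PROJECT M (S15), block [E1] (E1-c): from lattices to points of the upper half plane

`jLat L := 1728 g₂³ / (g₂³ - 27 g₃²)`.

* `jLat_pairOf` : `jLat ⟨cτ, c⟩ = jFun τ`;
* `exists_tau` : for `L₁` with `0 < Im(ω₁/ω₂)` and `L' = ⟨ω₁/N, ω₂⟩` there are `τ', τ'' ∈ ℍ` with
  `(j(τ'), j(Nτ')) = (jLat L', jLat L₁)` and `(j(τ''), j(Nτ'')) = (jLat L₁, jLat L')`.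
-/

set_option autoImplicit false

noncomputable section

namespace Fermat.Agent.S15.E1.TauDict

open UpperHalfPlane ModularForm EisensteinSeries Real
open Fermat.Agent.LevelOne.JBasic Fermat.Agent.LevelOne.EisLattice
open Fermat.Agent.S13.CU.LatticeOfInvariants Fermat.Agent.S15.E1.DivPair
open scoped MatrixGroups

local notation "Δ" => ModularForm.discriminant

/-- the `j`-invariant of a lattice -/
def jLat (L : PeriodPair) : ℂ := 1728 * L.g₂ ^ 3 / (L.g₂ ^ 3 - 27 * L.g₃ ^ 2)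

theorem jLat_pairOf (c : ℂ) (hc : c ≠ 0) (τ : ℍ) : jLat (pairOf c hc τ) = jFun τ := by
  have hπ : (π : ℂ) ≠ 0 := by exact_mod_cast Real.pi_ne_zero
  have hD : E₄ τ ^ 3 - E₆ τ ^ 2 ≠ 0 := E₄_cube_sub_E₆_sq_ne_zero τ
  rw [jLat, jFun_def, discriminant_eq, g₂_pairOf', g₃_pairOf']
  have hc12 : c ^ 12 ≠ 0 := pow_ne_zero 12 hc
  have e : ((c ^ 4)⁻¹ * (4 * (π : ℂ) ^ 4 / 3 * E₄ τ)) ^ 3
      - 27 * ((c ^ 6)⁻¹ * (8 * (π : ℂ) ^ 6 / 27 * E₆ τ)) ^ 2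
      = (c ^ 12)⁻¹ * (64 * (π : ℂ) ^ 12 / 27) * (E₄ τ ^ 3 - E₆ τ ^ 2) := by
    field_simp
    ring
  rw [e]
  have hne : (c ^ 12)⁻¹ * (64 * (π : ℂ) ^ 12 / 27) ≠ 0 :=
    mul_ne_zero (inv_ne_zero hc12)
      (div_ne_zero (mul_ne_zero (by norm_num) (pow_ne_zero 12 hπ)) (by norm_num))
  have e3 : ((c ^ 4)⁻¹ * (4 * (π : ℂ) ^ 4 / 3 * E₄ τ)) ^ 3
      = (c ^ 12)⁻¹ * (64 * (π : ℂ) ^ 12 / 27) * E₄ τ ^ 3 := by
    field_simp
    ring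
  rw [e3]
  field_simp

variable (L₁ : PeriodPair)

/-- the point `ω₁/ω₂` of the upper half plane -/
def tauOf (hpos : 0 < (L₁.ω₁ / L₁.ω₂).im) : ℍ := ⟨L₁.ω₁ / L₁.ω₂, hpos⟩

theorem ω₂_ne_zero : L₁.ω₂ ≠ 0 := by
  intro h0
  have hL := LinearIndependent.pair_iff.mp L₁.indep 0 1 (by simp [h0])
  exact one_ne_zero hL.2

theorem eq_pairOf (hpos : 0 < (L₁.ω₁ / L₁.ω₂).im) :
    L₁ = pairOf L₁.ω₂ (ω₂_ne_zero L₁) (tauOf L₁ hpos) := by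
  have h2 := ω₂_ne_zero L₁
  obtain ⟨w1, w2, hi⟩ := L₁
  have h1 : w1 = w2 * (w1 / w2) := by
    have h2' : w2 ≠ 0 := h2
    field_simp
  have key : ∀ (a : ℂ) (ha : a = w1) (hi' : LinearIndependent ℝ ![a, w2]),
      (PeriodPair.mk w1 w2 hi) = PeriodPair.mk a w2 hi' := by
    intro a ha hi'
    subst ha
    rfl
  exact key _ h1.symm _

theorem jLat_eq_jFun (hpos : 0 < (L₁.ω₁ / L₁.ω₂).im) : jLat L₁ = jFun (tauOf L₁ hpos) := by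
  conv_lhs => rw [eq_pairOf L₁ hpos]
  exact jLat_pairOf _ _ _

variable (N : ℕ) [NeZero N]

theorem divPair_pos (hpos : 0 < (L₁.ω₁ / L₁.ω₂).im) :
    0 < ((divPair L₁ N).ω₁ / (divPair L₁ N).ω₂).im := by
  have hN : (0 : ℝ) < N := Nat.cast_pos.mpr (Nat.pos_of_ne_zero (NeZero.ne N))
  have e : (divPair L₁ N).ω₁ / (divPair L₁ N).ω₂ = (L₁.ω₁ / L₁.ω₂) / ((N : ℝ) : ℂ) := by
    simp only [divPair_ω₁, divPair_ω₂, Complex.ofReal_natCast]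
    rw [div_div, div_div, mul_comm]
  rw [e, Complex.div_ofReal_im]
  exact div_pos hpos hN

/-- `N · τ' = τ` -/
theorem heckeDiag_smul_tauOf_divPair (hpos : 0 < (L₁.ω₁ / L₁.ω₂).im) :
    heckeDiagMatrix N • tauOf (divPair L₁ N) (divPair_pos L₁ N hpos) = tauOf L₁ hpos := by
  apply UpperHalfPlane.ext
  rw [coe_heckeDiagMatrix_smul (NeZero.ne N)]
  have hN := natCast_ne_zero N
  show (N : ℂ) * ((L₁.ω₁ / N) / L₁.ω₂) = L₁.ω₁ / L₁.ω₂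
  field_simp

/-- `N · (S τ) = S τ'` -/
theorem heckeDiag_smul_S_smul (hpos : 0 < (L₁.ω₁ / L₁.ω₂).im) :
    heckeDiagMatrix N • (ModularGroup.S • tauOf L₁ hpos)
      = ModularGroup.S • tauOf (divPair L₁ N) (divPair_pos L₁ N hpos) := by
  apply UpperHalfPlane.ext
  rw [coe_heckeDiagMatrix_smul (NeZero.ne N), UpperHalfPlane.modular_S_smul,
    UpperHalfPlane.modular_S_smul]
  have hN := natCast_ne_zero N
  have h2 := ω₂_ne_zero L₁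
  have hτ : (L₁.ω₁ / L₁.ω₂) ≠ 0 := by
    intro h0
    rw [h0] at hpos
    simp at hpos
  have h1 : L₁.ω₁ ≠ 0 := fun h => hτ (by rw [h, zero_div])
  show (N : ℂ) * (-(L₁.ω₁ / L₁.ω₂))⁻¹ = (-((L₁.ω₁ / N) / L₁.ω₂))⁻¹
  field_simp

/-- **The two points of `ℍ`.** -/
theorem exists_tau (hpos : 0 < (L₁.ω₁ / L₁.ω₂).im) :
    ∃ τ' τ'' : ℍ, jFun τ' = jLat (divPair L₁ N) ∧ jFun (heckeDiagMatrix N • τ') = jLat L₁ ∧
      jFun τ'' = jLat L₁ ∧ jFun (heckeDiagMatrix N • τ'') = jLat (divPair L₁ N) := by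
  refine ⟨tauOf (divPair L₁ N) (divPair_pos L₁ N hpos), ModularGroup.S • tauOf L₁ hpos,
    (jLat_eq_jFun _ _).symm, ?_, ?_, ?_⟩
  · rw [heckeDiag_smul_tauOf_divPair, jLat_eq_jFun L₁ hpos]
  · rw [jFun_smul, jLat_eq_jFun L₁ hpos]
  · rw [heckeDiag_smul_S_smul, jFun_smul, jLat_eq_jFun _ (divPair_pos L₁ N hpos)]

end Fermat.Agent.S15.E1.TauDict
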