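import Mathlib
import Fermat.Agent.S15.E1.DivPair
import Fermat.Agent.S15.E1.LatticeCongr
import Fermat.Agent.S15.E1.CyclicBasis
import Fermat.Agent.S15.E1.TauDict

/-!
# PROJECT M (S15), block [E1] (E1-c), generator form

`L : PeriodPair`, `N` prime, `z ∉ L` with `N z ∈ L`.  Then there are a period pair `L'` with
`L'.lattice = L + ℤ z` and points `τ, τ' ∈ ℍ` with

* `(j(τ), j(Nτ)) = (j(L), j(L'))`,
* `(j(τ'), j(Nτ')) = (j(L'), j(L))`,

where `j(L) = 1728 g₂³ / (g₂³ - 27 g₃²)` and `Nτ = heckeDiagMatrix N • τ`.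
-/

set_option autoImplicit false
set_option linter.unusedSectionVars false

noncomputable section

namespace Fermat.Agent.S15.E1.Generator

open UpperHalfPlane ModularForm
open Fermat.Agent.LevelOne.JBasic
open Fermat.Agent.S15.E1.DivPair Fermat.Agent.S15.E1.LatticeCongr
open Fermat.Agent.S15.E1.CyclicBasis Fermat.Agent.S15.E1.TauDict

/-- membership in `divPair L₁ N` -/
theorem mem_divPair_iff (L₁ : PeriodPair) (N : ℕ) [NeZero N] (w : ℂ) :
    w ∈ (divPair L₁ N).lattice ↔ ∃ k : ℤ, w - k * (L₁.ω₁ / N) ∈ L₁.lattice := by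
  constructor
  · intro hw
    obtain ⟨a, b, rfl⟩ := PeriodPair.mem_lattice.mp hw
    refine ⟨a, PeriodPair.mem_lattice.mpr ⟨0, b, ?_⟩⟩
    simp only [divPair_ω₁, divPair_ω₂, Int.cast_zero, zero_mul, zero_add]
    ring
  · rintro ⟨k, hk⟩
    obtain ⟨a, b, hab⟩ := PeriodPair.mem_lattice.mp hk
    have hN := natCast_ne_zero N
    refine PeriodPair.mem_lattice.mpr ⟨k + a * N, b, ?_⟩
    simp only [divPair_ω₁, divPair_ω₂, Int.cast_add, Int.cast_mul, Int.cast_natCast]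
    have : w = k * (L₁.ω₁ / N) + (a * L₁.ω₁ + b * L₁.ω₂) := by rw [hab]; ring
    rw [this]
    field_simp
    ring

/-- **(E1-c), generator form.** -/
theorem exists_tau_of_generator (L : PeriodPair) {N : ℕ} (hN : N.Prime) {z : ℂ}
    (hz : z ∉ L.lattice) (hNz : (N : ℂ) * z ∈ L.lattice) :
    ∃ (L' : PeriodPair) (τ τ' : ℍ),
      (∀ w : ℂ, w ∈ L'.lattice ↔ ∃ k : ℤ, w - k * z ∈ L.lattice) ∧
      1728 * L.g₂ ^ 3 / (L.g₂ ^ 3 - 27 * L.g₃ ^ 2) = jFun τ ∧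
      1728 * L'.g₂ ^ 3 / (L'.g₂ ^ 3 - 27 * L'.g₃ ^ 2) = jFun (heckeDiagMatrix N • τ) ∧
      1728 * L'.g₂ ^ 3 / (L'.g₂ ^ 3 - 27 * L'.g₃ ^ 2) = jFun τ' ∧
      1728 * L.g₂ ^ 3 / (L.g₂ ^ 3 - 27 * L.g₃ ^ 2) = jFun (heckeDiagMatrix N • τ') := by
  have : Fact N.Prime := ⟨hN⟩
  have : NeZero N := ⟨hN.ne_zero⟩
  -- the subgroup generated by `z`
  set g : ℂ ⧸ L.lattice.toAddSubgroup := (z : ℂ ⧸ L.lattice.toAddSubgroup) with hg
  have hg0 : g ≠ 0 := fun h0 => hz ((QuotientAddGroup.eq_zero_iff z).mp h0)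
  have hNg : N • g = 0 := by
    rw [hg, ← QuotientAddGroup.mk_nsmul, QuotientAddGroup.eq_zero_iff]
    simpa [nsmul_eq_mul] using hNz
  have hord : addOrderOf g = N := addOrderOf_eq_prime hNg hg0
  let C : AddSubgroup (ℂ ⧸ L.lattice.toAddSubgroup) := AddSubgroup.zmultiples g
  have hC : Nat.card C = N := by rw [Nat.card_zmultiples, hord]
  have hmemC : ∀ w : ℂ, (w : ℂ ⧸ L.lattice.toAddSubgroup) ∈ C ↔ ∃ k : ℤ, w - k * z ∈ L.lattice := by
    intro w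
    rw [AddSubgroup.mem_zmultiples_iff]
    constructor
    · rintro ⟨k, hk⟩
      refine ⟨k, ?_⟩
      have h2 : ((w - k * z : ℂ) : ℂ ⧸ L.lattice.toAddSubgroup) = 0 := by
        rw [QuotientAddGroup.mk_sub, ← hk, ← zsmul_eq_mul, QuotientAddGroup.mk_zsmul, sub_self]
      exact (QuotientAddGroup.eq_zero_iff _).mp h2
    · rintro ⟨k, hk⟩
      refine ⟨k, ?_⟩
      have h2 : ((w - k * z : ℂ) : ℂ ⧸ L.lattice.toAddSubgroup) = 0 :=
        (QuotientAddGroup.eq_zero_iff _).mpr hk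
      rw [QuotientAddGroup.mk_sub, sub_eq_zero, ← zsmul_eq_mul, QuotientAddGroup.mk_zsmul] at h2
      exact h2.symm
  obtain ⟨L₁, hlat, hpos, -, hmem⟩ := exists_basis_of_card_prime L C hC
  have h2 : L₁.g₂ = L.g₂ := g₂_congr hlat
  have h3 : L₁.g₃ = L.g₃ := g₃_congr hlat
  obtain ⟨τ', τ'', e1, e2, e3, e4⟩ := exists_tau L₁ N hpos
  refine ⟨divPair L₁ N, τ'', τ', fun w => ?_, ?_, ?_, ?_, ?_⟩
  · rw [mem_divPair_iff, hlat, ← hmem w, hmemC w]
  · rw [e3, jLat, h2, h3]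
  · rw [e4, jLat]
  · rw [e1, jLat]
  · rw [e2, jLat, h2, h3]

end Fermat.Agent.S15.E1.Generator
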