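import Mathlib
import Fermat.Agent.S15.E1.SubLattice

/-!
# PROJECT M (S15), block [E1]: `IsReps` in generator form

`L L' : PeriodPair`, `N` prime, `z ∉ L`, `N z ∈ L`, `L' = L + ℤ z`.  Then `z, 2z, …, (N-1) z`
represent the nonzero classes of `L'/L`, and the lattice sums of `SubLattice` read
`g₂(L') = g₂(L) + ∑_{k=1}^{N-1} (60 ℘(kz)² - 5 g₂)` etc.
-/

set_option autoImplicit false

noncomputable section

namespace Fermat.Agent.S15.E1.GeneratorReps

open Fermat.Agent.S15.E1.SubLattice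

variable {L L' : PeriodPair} {N : ℕ} {z : ℂ}

/-- `j z ∈ L ↔ N ∣ j` -/
theorem intCast_mul_mem_iff (hN : N.Prime) (hz : z ∉ L.lattice) (hNz : (N : ℂ) * z ∈ L.lattice)
    (j : ℤ) : (j : ℂ) * z ∈ L.lattice ↔ (N : ℤ) ∣ j := by
  constructor
  · intro hj
    by_contra hnd
    have hp : Prime (N : ℤ) := Nat.prime_iff_prime_int.mp hN
    have hcop : IsCoprime j (N : ℤ) := (IsCoprime.symm ((Prime.coprime_iff_not_dvd hp).mpr hnd))
    obtain ⟨u, v, huv⟩ := hcop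
    apply hz
    have huvC : (u : ℂ) * j + v * N = 1 := by exact_mod_cast huv
    have h1 : (u : ℂ) * ((j : ℂ) * z) ∈ L.lattice := by
      have := L.lattice.smul_mem u hj
      simpa [zsmul_eq_mul] using this
    have h2 : (v : ℂ) * ((N : ℂ) * z) ∈ L.lattice := by
      have := L.lattice.smul_mem v hNz
      simpa [zsmul_eq_mul] using this
    have : z = (u : ℂ) * ((j : ℂ) * z) + (v : ℂ) * ((N : ℂ) * z) := by
      linear_combination -z * huvC
    rw [this]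
    exact add_mem h1 h2
  · rintro ⟨m, rfl⟩
    have := L.lattice.smul_mem m hNz
    have e : ((N * m : ℤ) : ℂ) * z = (m : ℂ) * ((N : ℂ) * z) := by push_cast; ring
    rw [e]
    simpa [zsmul_eq_mul] using this

/-- the representatives `k z`, `1 ≤ k < N` -/
def reps (N : ℕ) (z : ℂ) : Finset ℂ := (Finset.Ico 1 N).image fun k : ℕ => (k : ℂ) * z

theorem injOn_mul (hN : N.Prime) (hz : z ∉ L.lattice) (hNz : (N : ℂ) * z ∈ L.lattice) :
    Set.InjOn (fun k : ℕ => (k : ℂ) * z) (Finset.Ico 1 N : Set ℕ) := by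
  intro k hk k' hk' heq
  rw [Finset.mem_coe, Finset.mem_Ico] at hk hk'
  have h0 : (((k : ℤ) - k' : ℤ) : ℂ) * z ∈ L.lattice := by
    have : (((k : ℤ) - k' : ℤ) : ℂ) * z = (k : ℂ) * z - (k' : ℂ) * z := by push_cast; ring
    rw [this]
    simp only at heq
    rw [heq, sub_self]
    exact zero_mem _
  rw [intCast_mul_mem_iff hN hz hNz] at h0
  have e : (k : ℤ) - k' = 0 :=
    Int.eq_zero_of_abs_lt_dvd h0 (by rw [abs_lt]; constructor <;> omega)
  omega

theorem isReps_of_generator (hN : N.Prime) (hz : z ∉ L.lattice) (hNz : (N : ℂ) * z ∈ L.lattice)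
    (hL' : ∀ w : ℂ, w ∈ L'.lattice ↔ ∃ k : ℤ, w - k * z ∈ L.lattice) :
    IsReps L L' (reps N z) where
  le := by
    intro w hw
    exact (hL' w).mpr ⟨0, by simpa using hw⟩
  mem := by
    intro r hr
    obtain ⟨k, -, rfl⟩ := Finset.mem_image.mp hr
    exact (hL' _).mpr ⟨k, by simp⟩
  notMem := by
    intro r hr
    obtain ⟨k, hk, rfl⟩ := Finset.mem_image.mp hr
    rw [Finset.mem_Ico] at hk
    intro hmem
    have h1 := (intCast_mul_mem_iff hN hz hNz (k : ℤ)).mp (by simpa using hmem)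
    have h2 : N ∣ k := by exact_mod_cast h1
    exact Nat.not_dvd_of_pos_of_lt hk.1 hk.2 h2
  exists_rep := by
    intro w hw hwL
    obtain ⟨j, hj⟩ := (hL' w).mp hw
    have hNpos : (0 : ℤ) < N := by exact_mod_cast hN.pos
    set k : ℕ := (j % N).toNat with hk
    have hk' : (k : ℤ) = j % N := Int.toNat_of_nonneg (Int.emod_nonneg _ hNpos.ne')
    have hkN : k < N := by
      have : (k : ℤ) < N := by rw [hk']; exact Int.emod_lt_of_pos _ hNpos
      exact_mod_cast this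
    have hjk : (j : ℂ) = (k : ℂ) + (N : ℂ) * ((j / N : ℤ) : ℂ) := by
      have h1 : ((k : ℤ) : ℂ) = ((j % N : ℤ) : ℂ) := by rw [hk']
      have h2 := Int.emod_add_mul_ediv j N
      have h3 : (j : ℂ) = ((j % N : ℤ) : ℂ) + (N : ℂ) * ((j / N : ℤ) : ℂ) := by
        exact_mod_cast h2.symm
      rw [h3, ← h1]; simp
    have hdiff : w - (k : ℂ) * z ∈ L.lattice := by
      have e : w - (k : ℂ) * z = (w - j * z) + ((j / N : ℤ) : ℂ) * ((N : ℂ) * z) := by
        rw [hjk]; ring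
      rw [e]
      refine add_mem hj ?_
      have := L.lattice.smul_mem (j / N) hNz
      simpa [zsmul_eq_mul] using this
    have hk0 : k ≠ 0 := by
      intro h0
      apply hwL
      rw [h0] at hdiff
      simpa using hdiff
    exact ⟨(k : ℂ) * z, Finset.mem_image.mpr ⟨k, Finset.mem_Ico.mpr ⟨Nat.pos_of_ne_zero hk0, hkN⟩,
      rfl⟩, hdiff⟩
  unique := by
    intro r hr r' hr' hd
    obtain ⟨k, hk, rfl⟩ := Finset.mem_image.mp hr
    obtain ⟨k', hk', rfl⟩ := Finset.mem_image.mp hr'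
    rw [Finset.mem_Ico] at hk hk'
    have h0 : (((k : ℤ) - k' : ℤ) : ℂ) * z ∈ L.lattice := by
      have : (((k : ℤ) - k' : ℤ) : ℂ) * z = (k : ℂ) * z - (k' : ℂ) * z := by push_cast; ring
      rw [this]; exact hd
    rw [intCast_mul_mem_iff hN hz hNz] at h0
    have e : (k : ℤ) - k' = 0 :=
      Int.eq_zero_of_abs_lt_dvd h0 (by rw [abs_lt]; constructor <;> omega)
    have : k = k' := by omega
    rw [this]

theorem sum_reps (hN : N.Prime) (hz : z ∉ L.lattice) (hNz : (N : ℂ) * z ∈ L.lattice)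
    (f : ℂ → ℂ) : ∑ r ∈ reps N z, f r = ∑ k ∈ Finset.Ico 1 N, f ((k : ℂ) * z) :=
  Finset.sum_image (injOn_mul (L := L) hN hz hNz)

/-- `g₂(L + ℤ z) = g₂(L) + 10 ∑_{k=1}^{N-1} ℘''(k z)` -/
theorem g₂_of_generator (hN : N.Prime) (hz : z ∉ L.lattice) (hNz : (N : ℂ) * z ∈ L.lattice)
    (hL' : ∀ w : ℂ, w ∈ L'.lattice ↔ ∃ k : ℤ, w - k * z ∈ L.lattice) :
    L'.g₂ = L.g₂ + 10 * ∑ k ∈ Finset.Ico 1 N, (6 * L.weierstrassP ((k : ℂ) * z) ^ 2 - L.g₂ / 2) := by
  rw [(isReps_of_generator hN hz hNz hL').g₂_eq', sum_reps (L := L) hN hz hNz]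

/-- `g₃(L + ℤ z) = g₃(L) + ∑_{k=1}^{N-1} (140 ℘(kz)³ - 21 g₂ ℘(kz) - 14 g₃)` -/
theorem g₃_of_generator (hN : N.Prime) (hz : z ∉ L.lattice) (hNz : (N : ℂ) * z ∈ L.lattice)
    (hL' : ∀ w : ℂ, w ∈ L'.lattice ↔ ∃ k : ℤ, w - k * z ∈ L.lattice) :
    L'.g₃ = L.g₃ + ∑ k ∈ Finset.Ico 1 N, (140 * L.weierstrassP ((k : ℂ) * z) ^ 3
      - 21 * L.g₂ * L.weierstrassP ((k : ℂ) * z) - 14 * L.g₃) := by
  rw [(isReps_of_generator hN hz hNz hL').g₃_eq, sum_reps (L := L) hN hz hNz]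

end Fermat.Agent.S15.E1.GeneratorReps
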