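import Mathlib
import Fermat.Agent.S15.E1.Transport
import Fermat.Agent.S15.E1.Generator
import Fermat.Agent.S15.E1.GeneratorReps
import Fermat.Agent.S15.E2.DiscLattice

/-!
# PROJECT M, Vélu's curve: the invariants of the honest model

* `exists_unif_velu`: the uniformisation package of `E1/Transport` together with the invariants
  `c₄, c₆, Δ` of Vélu's curve `veluCurve W C` in terms of a period pair of the bigger lattice.
* `veluCurve_disc`: for a point `Q` of odd prime order `p`,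
  `Δ(veluCurve W ⟨Q⟩) * ∏_{k=1}^{p-1} ψ₂(k Q)⁴ = Δ(W)^p` (the model form of the lattice identity
  `E2/DiscLattice.disc_superlattice`).
* `veluCurve_c₄_zmultiples`: `c₄(veluCurve W ⟨Q⟩) = c₄(W) + 120 ∑_{k=1}^{p-1} t(k Q)`.
-/

set_option autoImplicit false

noncomputable section

namespace Fermat.Agent.S15.E1.VeluDisc

open WeierstrassCurve
open Fermat.Agent.S15.Velu Fermat.Agent.S13.Local.NodalInst
open Fermat.Agent.S13.CU.Defs Fermat.Agent.S13.CU Fermat.Agent.S13.CU.DescentIface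
open Fermat.Agent.S15.E1.Transport Fermat.Agent.S15.E1.SubLattice
open scoped PeriodPair

/-! ### the master form of the uniformisation package -/

theorem shortOf_c₆ (L : PeriodPair) : (shortOf L).c₆ = 216 * L.g₃ := by
  simp only [WeierstrassCurve.c₆, WeierstrassCurve.b₂, WeierstrassCurve.b₄, WeierstrassCurve.b₆,
    shortOf_a₁, shortOf_a₂, shortOf_a₃, shortOf_a₄, shortOf_a₆]
  ring

theorem unif_dict_c₆ {W : WeierstrassCurve ℂ} {L : PeriodPair} {V : VariableChange ℂ}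
    (hV : V • W = shortOf L) : W.c₆ = (V.u : ℂ) ^ 6 * (216 * L.g₃) := by
  have hu : (V.u : ℂ) ≠ 0 := V.u.ne_zero
  have h : (V • W).c₆ = 216 * L.g₃ := by rw [hV, shortOf_c₆]
  rw [variableChange_c₆, Units.val_inv_eq_inv_val] at h
  rw [← h]
  field_simp

/-- composition of a surjective parametrisation of `V • W₀` with the change of variables,
with Vélu's curves -/
theorem exists_unif_aux' (W₀ : WeierstrassCurve ℂ) (V : VariableChange ℂ)
    (W' : WeierstrassCurve ℂ) (hW' : V • W₀ = W') (f : ℂ →+ W'.toAffine.Point)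
    (hf : Function.Surjective f) :
    ∃ π : ℂ →+ W₀.toAffine.Point, (∀ z, π z = 0 ↔ f z = 0) ∧ Function.Surjective π ∧
      (∀ z, f z ≠ 0 → ptX W₀ (π z) = (V.u : ℂ) ^ 2 * ptX W' (f z) + V.r ∧
        ptY W₀ (π z)
          = (V.u : ℂ) ^ 3 * ptY W' (f z) + (V.u : ℂ) ^ 2 * V.s * ptX W' (f z) + V.t) ∧
      ∀ D : Set W₀.toAffine.Point, D.Finite →
        veluCurve W' (f '' (π ⁻¹' D)) = V • veluCurve W₀ D := by
  subst hW'
  refine ⟨(VarChange.pointEquiv W₀ V).toAddMonoidHom.comp f, fun z => ?_, ?_,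
    fun z hz => ⟨?_, ?_⟩, fun D hD => ?_⟩
  · exact (VarChange.pointEquiv W₀ V).map_eq_zero_iff
  · exact (VarChange.pointEquiv W₀ V).surjective.comp hf
  · exact ptX_pointEquiv W₀ V hz
  · exact ptY_pointEquiv W₀ V hz
  · have hset : f '' (⇑((VarChange.pointEquiv W₀ V).toAddMonoidHom.comp f) ⁻¹' D)
        = VarChange.pointEquiv W₀ V ⁻¹' D := by
      have : (⇑((VarChange.pointEquiv W₀ V).toAddMonoidHom.comp f) ⁻¹' D)
          = f ⁻¹' (VarChange.pointEquiv W₀ V ⁻¹' D) := rfl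
      rw [this, Set.image_preimage_eq _ hf]
    rw [hset]
    exact veluCurve_smul W₀ V D hD

variable {K : Type*} [Field K] [DecidableEq K]

/-- **The master form of the uniformisation package**: the lattice, the coordinates of the
points and the invariants of Vélu's curves. -/
theorem exists_unif_velu (W : WeierstrassCurve K) (hΔ : W.Δ ≠ 0) (i : K →+* ℂ) :
    ∃ (L : PeriodPair) (u r : ℂ) (π : ℂ →+ (W.map i).toAffine.Point), u ≠ 0 ∧
      Function.Surjective π ∧ (∀ z, π z = 0 ↔ z ∈ L.lattice) ∧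
      i W.c₄ = u ^ 4 * (12 * L.g₂) ∧ i W.Δ = u ^ 12 * (L.g₂ ^ 3 - 27 * L.g₃ ^ 2) ∧
      (∀ (Q : W.toAffine.Point) (z : ℂ), π z = mapPoint i W Q → z ∉ L.lattice →
        i (ptX W Q) = u ^ 2 * ℘[L] z + r ∧
        i (tTerm W (ptX W Q)) = u ^ 4 * (6 * ℘[L] z ^ 2 - L.g₂ / 2) ∧
        i (2 * ptY W Q + W.a₁ * ptX W Q + W.a₃) = u ^ 3 * ℘'[L] z) ∧
      ∀ (C : Set W.toAffine.Point), C.Finite → ∀ (L' : PeriodPair) (R : Finset ℂ),
        (∀ w : ℂ, w ∈ L'.lattice ↔ π w ∈ mapPoint i W '' C) → IsReps L L' R →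
        i (veluCurve W C).c₄ = u ^ 4 * (12 * L'.g₂) ∧
        i (veluCurve W C).Δ = u ^ 12 * (L'.g₂ ^ 3 - 27 * L'.g₃ ^ 2) ∧
        i (veluCurve W C).c₆ = u ^ 6 * (216 * L'.g₃) := by
  have hΔ' : (W.map i).Δ ≠ 0 := by
    rw [WeierstrassCurve.map_Δ]
    exact (map_ne_zero i).mpr hΔ
  obtain ⟨L, V, hV⟩ := Uniformize.exists_variableChange (W.map i) hΔ'
  obtain ⟨π, h0, hsurj, hxy, hvel⟩ := exists_unif_aux' (W.map i) V (shortOf L) hV
    (UnifIso.toPoint L) (UnifIso.toPoint_surjective L)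
  obtain ⟨hc4, hD, ht, -, hpsi⟩ := unif_dict hV
  have hker : ∀ z, π z = 0 ↔ z ∈ L.lattice :=
    fun z => (h0 z).trans (UnifIso.toPoint_eq_zero_iff L)
  refine ⟨L, V.u, V.r, π, V.u.ne_zero, hsurj, hker, ?_, ?_, fun Q z hz hzL => ?_,
    fun C hC L' R hL' hR => ?_⟩
  · rw [← hc4, WeierstrassCurve.map_c₄]
  · rw [← hD, WeierstrassCurve.map_Δ]
  · have hz' : UnifIso.toPoint L z ≠ 0 := fun h => hzL ((UnifIso.toPoint_eq_zero_iff L).mp h)
    obtain ⟨hx, hy⟩ := hxy z hz'
    rw [ptX_toPoint hzL] at hx hy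
    rw [ptY_toPoint hzL] at hy
    rw [hz, ptX_mapPoint] at hx
    rw [hz, ptY_mapPoint] at hy
    refine ⟨hx, ?_, ?_⟩
    · rw [← tTerm_map, hx, ht]
    · have h := hpsi (℘[L] z) (℘'[L] z / 2)
      rw [← hx, ← hy, WeierstrassCurve.map_a₁, WeierstrassCurve.map_a₃] at h
      rw [map_add, map_add, map_mul, map_mul, map_ofNat, h]
      ring
  · have hset : π ⁻¹' (mapPoint i W '' C) = (L'.lattice : Set ℂ) := by
      ext w
      exact (hL' w).symm
    have h1 := hvel (mapPoint i W '' C) (hC.image _)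
    rw [hset, veluCurve_shortOf hR, veluCurve_map] at h1
    obtain ⟨hc4', hD', -, -, -⟩ := unif_dict h1.symm
    have hc6' := unif_dict_c₆ h1.symm
    rw [WeierstrassCurve.map_c₄] at hc4'
    rw [WeierstrassCurve.map_Δ] at hD'
    rw [WeierstrassCurve.map_c₆] at hc6'
    exact ⟨hc4', hD', hc6'⟩

/-! ### the cyclic case: a point of odd prime order -/

open Fermat.Agent.S15.E1.GeneratorReps

/-- helper9's frame of representatives gives helper27's. -/
theorem isReps27 {L L' : PeriodPair} {R : Finset ℂ} (h : IsReps L L' R) :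
    Fermat.Agent.S15.E2.DiscLattice.IsReps L L' R where
  le := h.le
  mem := h.mem
  notMem := h.notMem
  inj := h.unique
  cover := fun l hl => by
    by_cases hlL : l ∈ L.lattice
    · exact Or.inl hlL
    · exact Or.inr (h.exists_rep l hl hlL)

theorem reps_def (N : ℕ) (z : ℂ) :
    reps N z = (Finset.Ico 1 N).image fun k : ℕ => (k : ℂ) * z := rfl

theorem Icc_eq_Ico {p : ℕ} (hp : 0 < p) : Finset.Icc 1 (p - 1) = Finset.Ico 1 p := by
  ext k
  simp only [Finset.mem_Icc, Finset.mem_Ico]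
  omega

section cyclic

variable (W : WeierstrassCurve K) (hΔ : W.Δ ≠ 0) (i : K →+* ℂ) {p : ℕ} (hp : p.Prime)
  {Q : W.toAffine.Point} (hQ : Q ≠ 0) (hpQ : p • Q = 0)

include hp hQ hpQ in
theorem finite_zmultiples : (AddSubgroup.zmultiples Q : Set W.toAffine.Point).Finite := by
  have h1 : ((AddSubgroup.zmultiples Q : Set W.toAffine.Point) \ {0}).Finite := by
    rw [← (bijOn_nsmul hp hQ hpQ).image_eq]
    exact (Finset.finite_toSet _).image _
  exact (h1.union (Set.finite_singleton 0)).subset (by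
    intro x hx
    by_cases h0 : x = 0
    · exact Or.inr h0
    · exact Or.inl ⟨hx, h0⟩)

include hΔ i hp hQ hpQ in
/-- **(V-DELTA) for the honest Vélu model**: `Δ(veluCurve W ⟨Q⟩) ∏_{k=1}^{p-1} ψ₂(kQ)⁴ = Δ(W)^p`
for a point `Q` of odd prime order `p`. -/
theorem veluCurve_disc (hp2 : p ≠ 2) :
    (veluCurve W (AddSubgroup.zmultiples Q : Set W.toAffine.Point)).Δ *
        ∏ k ∈ Finset.Icc 1 (p - 1),
          (2 * ptY W (k • Q) + W.a₁ * ptX W (k • Q) + W.a₃) ^ 4
      = W.Δ ^ p := by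
  obtain ⟨L, u, r, π, hu, hsurj, hker, -, hD, hpt, hvel⟩ := exists_unif_velu W hΔ i
  obtain ⟨z, hz⟩ := hsurj (mapPoint i W Q)
  -- multiples of `z`
  have hmul : ∀ k : ℤ, π ((k : ℂ) * z) = mapPoint i W (k • Q) := by
    intro k
    rw [← zsmul_eq_mul, map_zsmul, hz, map_zsmul]
  have hzL : z ∉ L.lattice := by
    intro h
    have h1 := (hker z).mpr h
    rw [hz] at h1
    exact hQ ((mapPoint_eq_zero_iff i W Q).mp h1)
  have hpz : (p : ℂ) * z ∈ L.lattice := by
    rw [← hker]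
    have := hmul (p : ℤ)
    rw [Int.cast_natCast, natCast_zsmul, hpQ, map_zero] at this
    exact this
  obtain ⟨L', -, -, hL', -⟩ := Generator.exists_tau_of_generator L hp hzL hpz
  have hR : IsReps L L' (reps p z) := isReps_of_generator hp hzL hpz hL'
  -- the lattice of `L'` is the preimage of the subgroup
  have hlat : ∀ w : ℂ, w ∈ L'.lattice
      ↔ π w ∈ mapPoint i W '' (AddSubgroup.zmultiples Q : Set W.toAffine.Point) := by
    intro w
    rw [hL']
    constructor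
    · rintro ⟨k, hk⟩
      refine ⟨k • Q, AddSubgroup.zsmul_mem _ (AddSubgroup.mem_zmultiples Q) k, ?_⟩
      rw [← hmul k]
      have h1 := (hker _).mpr hk
      rw [map_sub, sub_eq_zero] at h1
      exact h1.symm
    · rintro ⟨P, hP, hPw⟩
      obtain ⟨k, rfl⟩ := AddSubgroup.mem_zmultiples_iff.mp hP
      refine ⟨k, ?_⟩
      rw [← hker, map_sub, hmul k, hPw, sub_self]
  obtain ⟨-, hD', -⟩ := hvel _ (finite_zmultiples W hp hQ hpQ) L' (reps p z) hlat hR
  -- the lattice identity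
  have hodd : Odd p := hp.odd_of_ne_two hp2
  have hmulL : ∀ l ∈ L'.lattice, (p : ℂ) * l ∈ L.lattice := by
    intro l hl
    obtain ⟨k, hk⟩ := (hL' l).mp hl
    have e : (p : ℂ) * l = (p : ℂ) * (l - k * z) + (k : ℂ) * ((p : ℂ) * z) := by ring
    rw [e]
    refine add_mem ?_ ?_
    · have := L.lattice.smul_mem (p : ℤ) hk
      simpa [zsmul_eq_mul] using this
    · have := L.lattice.smul_mem k hpz
      simpa [zsmul_eq_mul] using this
  have hdisc := Fermat.Agent.S15.E2.DiscLattice.disc_superlattice (isReps27 hR) hodd hmulL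
  have hcard : (reps p z).card + 1 = p := by
    rw [reps_def, Finset.card_image_of_injOn (injOn_mul (L := L) hp hzL hpz), Nat.card_Ico]
    have := hp.pos
    omega
  rw [hcard, reps_def, Finset.prod_image (injOn_mul (L := L) hp hzL hpz)] at hdisc
  -- the points `k Q`
  have hpsi : ∀ k ∈ Finset.Ico 1 p,
      i (2 * ptY W (k • Q) + W.a₁ * ptX W (k • Q) + W.a₃) = u ^ 3 * ℘'[L] ((k : ℂ) * z) := by
    intro k hk
    have hkL : (k : ℂ) * z ∉ L.lattice :=
      hR.notMem _ (Finset.mem_image.mpr ⟨k, hk, rfl⟩)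
    have h1 := hmul (k : ℤ)
    rw [Int.cast_natCast, natCast_zsmul] at h1
    exact (hpt (k • Q) _ h1 hkL).2.2
  apply i.injective
  rw [map_mul, map_pow, map_prod, hD', hD, Icc_eq_Ico hp.pos,
    Finset.prod_congr rfl (fun k hk => by rw [map_pow, hpsi k hk])]
  have hsplit : ∏ k ∈ Finset.Ico 1 p, (u ^ 3 * ℘'[L] ((k : ℂ) * z)) ^ 4
      = (u ^ 12) ^ (p - 1) * ∏ k ∈ Finset.Ico 1 p, ℘'[L] ((k : ℂ) * z) ^ 4 := by
    rw [← Nat.card_Ico 1 p, ← Finset.prod_const, ← Finset.prod_mul_distrib]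
    refine Finset.prod_congr rfl fun k _ => ?_
    ring
  rw [hsplit, mul_pow, ← hdisc]
  have hpp : p = (p - 1) + 1 := by have := hp.pos; omega
  have hu12 : (u ^ 12) ^ p = u ^ 12 * (u ^ 12) ^ (p - 1) := by
    conv_lhs => rw [hpp, pow_succ]
    ring
  rw [hu12]
  ring

include hp hQ hpQ in
/-- `c₄(veluCurve W ⟨Q⟩) = c₄(W) + 120 ∑_{k=1}^{p-1} t(kQ)`. -/
theorem veluCurve_c₄_zmultiples (h2 : (2 : K) ≠ 0) :
    (veluCurve W (AddSubgroup.zmultiples Q : Set W.toAffine.Point)).c₄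
      = W.c₄ + 120 * ∑ k ∈ Finset.Icc 1 (p - 1), tTerm W (ptX W (k • Q)) := by
  rw [veluCurve_eq_veluOf, veluOf_c₄]
  have hT : veluT W (AddSubgroup.zmultiples Q : Set W.toAffine.Point)
      = (∑ k ∈ Finset.Icc 1 (p - 1), tTerm W (ptX W (k • Q))) / 2 := by
    show (∑ᶠ P ∈ (AddSubgroup.zmultiples Q : Set W.toAffine.Point) \ {0}, tTerm W (ptX W P)) / 2
      = _
    rw [finsum_zmultiples hp hQ hpQ]
  rw [hT]
  field_simp
  ring

end cyclic

end Fermat.Agent.S15.E1.VeluDisc
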