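import Mathlib
import Fermat.Agent.S24.Bridge
import Fermat.Agent.S24.LaurentPt
import Fermat.Agent.S30.Analytic.ComapPlace

/-!
# PROJECT M, block (E1), leaf (E1-d): the place of `X₀(N)` at a point of the upper half plane

`F = modularFunctionFieldBar N ⊆ ℚ̄((q))`, `Kb = AlgebraicClosure ℚ`, `ι : Kb →+* ℂ` ANY ring
homomorphism (an explicit parameter), `jFun = E₄³/Δ` the analytic `j`-function of
`LevelOne/JBasic`.

For `τ ∈ ℍ` the Taylor expansion at `τ` gives a ring homomorphism `F → ℂ((t))`; the pull back of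
the `t`-adic valuation ring is a place `placeAt N ι τ` of `F/Kb`, and

* `j - a` is a non-unit at it as soon as `j(τ) = ι a`;
* `j_N - b` is a non-unit at it as soon as `j(Nτ) = ι b`.

`exists_place` packages this; `exists_place_fricke` is the mirrored statement at `-1/(Nτ)`.
-/

set_option autoImplicit false

noncomputable section

namespace Fermat.Agent.S15.E1.PlaceAtTau

open UpperHalfPlane CongruenceSubgroup WithZero AlgebraicCurve ModularCurve ModularForm
open Fermat.Agent.S20 Fermat.Agent.S24.RepHom Fermat.Agent.S24.LaurentPt Fermat.Agent.S24.RepAll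
  Fermat.Agent.S24.DegreeAlg Fermat.Agent.LevelOne.JBasic
  Fermat.Agent.S24.Taylor
open scoped MatrixGroups ModularForm Manifold

local notation "Kb" => AlgebraicClosure ℚ

/-! ### Generic: the non-units of a pulled back valuation ring -/

theorem mem_nonunits_comap_iff {F Om : Type*} [Field F] [Field Om] (w : Valuation Om ℤᵐ⁰)
    (ℓ : F →+* Om) (f : F) :
    f ∈ (w.valuationSubring.comap ℓ).nonunits ↔ w (ℓ f) < 1 := by
  rw [ValuationSubring.mem_nonunits_iff_or]
  by_cases hf : f = 0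
  · subst hf
    simp
  · have hne : w (ℓ f) ≠ 0 := by
      rw [ne_eq, Valuation.zero_iff]
      exact (map_ne_zero ℓ).mpr hf
    rw [ValuationSubring.mem_comap, Valuation.mem_valuationSubring_iff, map_inv₀, map_inv₀]
    constructor
    · rintro (h | h)
      · exact absurd h hf
      · rw [not_le] at h
        exact (one_lt_inv₀ (zero_lt_iff.mpr hne)).mp h
    · intro h
      right
      rw [not_le]
      exact (one_lt_inv₀ (zero_lt_iff.mpr hne)).mpr h

/-- A power series with vanishing constant coefficient has valuation `< 1` in `ℂ((t))`. -/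
theorem valued_ofPS_lt_one {p : PowerSeries ℂ} (hp : PowerSeries.constantCoeff p = 0) :
    (Valued.v : Valuation (LaurentSeries ℂ) ℤᵐ⁰) (ofPS p) < 1 := by
  have h1 : (Valued.v : Valuation (LaurentSeries ℂ) ℤᵐ⁰) (ofPS p) ≤ exp (-((1 : ℕ) : ℤ)) := by
    rw [LaurentSeries.intValuation_le_iff_coeff_lt_eq_zero]
    intro m hm
    have : m = 0 := by omega
    subst this
    rw [PowerSeries.coeff_zero_eq_constantCoeff_apply]
    exact hp
  refine lt_of_le_of_lt h1 ?_
  rw [← exp_zero, exp_lt_exp]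
  norm_num

/-- A power series with non-vanishing constant coefficient has valuation `1` in `ℂ((t))`. -/
theorem valued_ofPS_eq_one {p : PowerSeries ℂ} (hp : PowerSeries.constantCoeff p ≠ 0) :
    (Valued.v : Valuation (LaurentSeries ℂ) ℤᵐ⁰) (ofPS p) = 1 := by
  have hp0 : p ≠ 0 := by
    rintro rfl
    exact hp (map_zero _)
  rw [valuation_ofPS hp0]
  have : p.order = 0 := by
    rw [PowerSeries.order_zero_of_unit]
    rw [PowerSeries.isUnit_iff_constantCoeff]
    exact isUnit_iff_ne_zero.mpr hp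
  rw [this]
  rfl

variable (N : ℕ) [NeZero N] (ι : Kb →+* ℂ)

/-! ### The expansion homomorphism and its place -/

/-- The Taylor expansion at `τ` of the modular functions for `Γ₀(N)` (prelude field). -/
def expand (τ : ℍ) : ↥(modularFunctionFieldBar N) →+* LaurentSeries ℂ :=
  (Lpt N τ 1).comp (toRepField N ι)

theorem expand_apply (τ : ℍ) (f : ↥(modularFunctionFieldBar N)) :
    expand N ι τ f = Lpt N τ 1 (toRepField N ι f) := rfl

theorem valued_expand_algebraMap_le (τ : ℍ) (c : Kb) :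
    (Valued.v : Valuation (LaurentSeries ℂ) ℤᵐ⁰)
      (expand N ι τ (algebraMap Kb ↥(modularFunctionFieldBar N) c)) ≤ 1 := by
  rw [expand_apply, Fermat.Agent.S24.Bridge.toRepField_algebraMap]
  exact valuation_Lpt_const_le_one τ 1 (ι c) _

/-- `v (j - a) = exp (-m)`, `m ∈ {1, 2, 3}`, at the expansion at `τ` when `j(τ) = ι a`. -/
theorem valued_expand_jgen_sub (τ : ℍ) (a : Kb) (ha : jFun τ = ι a) :
    (Valued.v : Valuation (LaurentSeries ℂ) ℤᵐ⁰)
      (expand N ι τ (jgen N - algebraMap Kb ↥(modularFunctionFieldBar N) a))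
      = exp (-((if jFun τ = 0 then 3 else if jFun τ = 1728 then 2 else 1 : ℕ) : ℤ)) := by
  rw [expand_apply, Fermat.Agent.S24.Bridge.toRepField_jgen_sub, ← ha]
  exact Fermat.Agent.S24.LmapJ.valued_Lmap_jrep_sub (N := N) (taylorHolHom τ) (fun _ _ => rfl) 1
    (slashP_mdiff N 1)

theorem valued_expand_jgen_sub_lt_one (τ : ℍ) (a : Kb) (ha : jFun τ = ι a) :
    (Valued.v : Valuation (LaurentSeries ℂ) ℤᵐ⁰)
      (expand N ι τ (jgen N - algebraMap Kb ↥(modularFunctionFieldBar N) a)) < 1 := by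
  rw [valued_expand_jgen_sub N ι τ a ha, ← exp_zero, exp_lt_exp]
  split_ifs <;> norm_num

/-- The expansion of `j_N - b` at `τ` as a quotient of two Taylor series. -/
theorem expand_jdivF_sub (τ : ℍ) (b : Kb) :
    expand N ι τ (jdivF N ⟨N, dvd_rfl⟩ - algebraMap Kb ↥(modularFunctionFieldBar N) b)
      * ofPS (taylorAt τ (Fermat.Agent.S24.LmapSep.denFun N))
      = ofPS (taylorAt τ (Fermat.Agent.S24.LmapSep.numFun N
          - (fun _ : ℍ => ι b) * Fermat.Agent.S24.LmapSep.denFun N)) := by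
  have hr := Fermat.Agent.S24.LmapSep.isRepOf_jd (N := N) (d := N) dvd_rfl
  have hA : MDiff (Fermat.Agent.S24.LmapSep.numFun N) := mdiff_of_isMF hr.ha
  have hB : MDiff (Fermat.Agent.S24.LmapSep.denFun N) := mdiff_of_isMF hr.hb
  have hC : MDiff (fun _ : ℍ => ι b) := mdifferentiable_const
  have h1 := Fermat.Agent.S24.LmapSep.Lmap_jdRep_mul (N := N) (taylorHolHom τ)
    (slashP_mdiff N 1) (d := N) dvd_rfl
  rw [SlashAction.slash_one, SlashAction.slash_one] at h1
  have h2 : Lpt N τ 1 (Fermat.Agent.S24.LmapJ.crep N (ι b)) = HahnSeries.C (ι b) :=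
    Lpt_const τ 1 (ι b) _
  rw [expand_apply, map_sub, Fermat.Agent.S24.Bridge.toRepField_jdivF_self,
    Fermat.Agent.S24.Bridge.toRepField_algebraMap, map_sub, h2, sub_mul]
  have h3 : Lpt N τ 1 (Fermat.Agent.S24.LmapSep.jNrep N)
      * ofPS (taylorAt τ (Fermat.Agent.S24.LmapSep.denFun N))
      = ofPS (taylorAt τ (Fermat.Agent.S24.LmapSep.numFun N)) := h1
  rw [h3, sub_eq_add_neg (Fermat.Agent.S24.LmapSep.numFun N), taylorAt_add τ hA (hC.mul hB).neg,
    map_add]
  have h4 : -((fun _ : ℍ => ι b) * Fermat.Agent.S24.LmapSep.denFun N)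
      = (fun _ : ℍ => -ι b) * Fermat.Agent.S24.LmapSep.denFun N := by
    funext z
    simp
  rw [h4, taylorAt_mul τ mdifferentiable_const hB, taylorAt_const, map_mul,
    show ofPS (PowerSeries.C (-ι b)) = (HahnSeries.C (-ι b) : LaurentSeries ℂ) from
      HahnSeries.ofPowerSeries_C _, map_neg]
  ring

theorem valued_expand_jdivF_sub_lt_one (τ : ℍ) (b : Kb)
    (hb : jFun (heckeDiagMatrix N • τ) = ι b) :
    (Valued.v : Valuation (LaurentSeries ℂ) ℤᵐ⁰)
      (expand N ι τ (jdivF N ⟨N, dvd_rfl⟩ - algebraMap Kb ↥(modularFunctionFieldBar N) b)) < 1 := by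
  have h1 := congrArg (Valued.v : Valuation (LaurentSeries ℂ) ℤᵐ⁰) (expand_jdivF_sub N ι τ b)
  rw [map_mul, valued_ofPS_eq_one (p := taylorAt τ (Fermat.Agent.S24.LmapSep.denFun N)), mul_one]
    at h1
  · rw [h1]
    apply valued_ofPS_lt_one
    rw [constantCoeff_taylorAt]
    simp only [Pi.sub_apply, Pi.mul_apply]
    rw [Fermat.Agent.S24.LmapSep.numFun_eq, hb]
    ring
  · rw [constantCoeff_taylorAt]
    exact Fermat.Agent.S24.LmapSep.denFun_ne_zero N τ

/-! ### The place -/

theorem exists_valued_expand_ne_one (τ : ℍ) (a : Kb) (ha : jFun τ = ι a) :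
    ∃ f : ↥(modularFunctionFieldBar N), f ≠ 0 ∧
      (Valued.v : Valuation (LaurentSeries ℂ) ℤᵐ⁰) (expand N ι τ f) ≠ 1 := by
  have h1 := valued_expand_jgen_sub N ι τ a ha
  refine ⟨jgen N - algebraMap Kb ↥(modularFunctionFieldBar N) a, ?_, ?_⟩
  · intro h0
    rw [h0, map_zero, map_zero] at h1
    exact WithZero.exp_ne_zero h1.symm
  · exact ne_of_lt (valued_expand_jgen_sub_lt_one N ι τ a ha)

/-- **The place of `X₀(N)` at the point `τ`** (which has to be algebraic: `j(τ) = ι a`). -/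
def placeAt (τ : ℍ) (a : Kb) (ha : jFun τ = ι a) : Place Kb ↥(modularFunctionFieldBar N) :=
  Fermat.Agent.S30.Analytic.ComapPlace.comapPlace (K := Kb) Valued.v (expand N ι τ)
    (valued_expand_algebraMap_le N ι τ) (exists_valued_expand_ne_one N ι τ a ha)

theorem placeAt_toValuationSubring (τ : ℍ) (a : Kb) (ha : jFun τ = ι a) :
    (placeAt N ι τ a ha).toValuationSubring
      = (Valued.v : Valuation (LaurentSeries ℂ) ℤᵐ⁰).valuationSubring.comap (expand N ι τ) := rfl

theorem mem_placeAt_iff (τ : ℍ) (a : Kb) (ha : jFun τ = ι a) (f : ↥(modularFunctionFieldBar N)) :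
    f ∈ (placeAt N ι τ a ha).toValuationSubring
      ↔ (Valued.v : Valuation (LaurentSeries ℂ) ℤᵐ⁰) (expand N ι τ f) ≤ 1 := by
  rw [placeAt_toValuationSubring, ValuationSubring.mem_comap, Valuation.mem_valuationSubring_iff]

theorem mem_nonunits_placeAt_iff (τ : ℍ) (a : Kb) (ha : jFun τ = ι a)
    (f : ↥(modularFunctionFieldBar N)) :
    f ∈ (placeAt N ι τ a ha).toValuationSubring.nonunits
      ↔ (Valued.v : Valuation (LaurentSeries ℂ) ℤᵐ⁰) (expand N ι τ f) < 1 := by
  rw [placeAt_toValuationSubring, mem_nonunits_comap_iff]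

/-- `j - a` vanishes at the place at `τ` when `j(τ) = ι a`. -/
theorem jgen_sub_mem_nonunits (τ : ℍ) (a : Kb) (ha : jFun τ = ι a) :
    jgen N - algebraMap Kb ↥(modularFunctionFieldBar N) a
      ∈ (placeAt N ι τ a ha).toValuationSubring.nonunits :=
  (mem_nonunits_placeAt_iff N ι τ a ha _).mpr (valued_expand_jgen_sub_lt_one N ι τ a ha)

/-- `j_N - b` vanishes at the place at `τ` when `j(Nτ) = ι b`. -/
theorem jdivF_sub_mem_nonunits (τ : ℍ) (a b : Kb) (ha : jFun τ = ι a)
    (hb : jFun (heckeDiagMatrix N • τ) = ι b) :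
    jdivF N ⟨N, dvd_rfl⟩ - algebraMap Kb ↥(modularFunctionFieldBar N) b
      ∈ (placeAt N ι τ a ha).toValuationSubring.nonunits :=
  (mem_nonunits_placeAt_iff N ι τ a ha _).mpr (valued_expand_jdivF_sub_lt_one N ι τ b hb)

/-- **(E1-d)**: the place at `τ`, with the values of `j` and of `j_N`. -/
theorem exists_place (τ : ℍ) (a b : Kb) (ha : jFun τ = ι a)
    (hb : jFun (heckeDiagMatrix N • τ) = ι b) :
    ∃ x : Place Kb ↥(modularFunctionFieldBar N),
      jgen N - algebraMap Kb ↥(modularFunctionFieldBar N) a ∈ x.toValuationSubring.nonunits ∧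
      jdivF N ⟨N, dvd_rfl⟩ - algebraMap Kb ↥(modularFunctionFieldBar N) b
        ∈ x.toValuationSubring.nonunits :=
  ⟨placeAt N ι τ a ha, jgen_sub_mem_nonunits N ι τ a ha, jdivF_sub_mem_nonunits N ι τ a b ha hb⟩

/-! ### The mirrored place (at `-1/(Nτ)`) -/

/-- The point `-1/(Nτ)`. -/
def frickePt (τ : ℍ) : ℍ := ModularGroup.S • (heckeDiagMatrix N • τ)

omit [NeZero N] in
theorem jFun_frickePt (τ : ℍ) : jFun (frickePt N τ) = jFun (heckeDiagMatrix N • τ) :=
  jFun_smul _ _

theorem heckeDiagMatrix_smul_frickePt (τ : ℍ) :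
    heckeDiagMatrix N • frickePt N τ = ModularGroup.S • τ := by
  have hN : N ≠ 0 := NeZero.ne N
  apply UpperHalfPlane.ext
  rw [coe_heckeDiagMatrix_smul hN, frickePt, UpperHalfPlane.modular_S_smul,
    UpperHalfPlane.modular_S_smul]
  show ((N : ℕ) : ℂ) * (-((heckeDiagMatrix N • τ : ℍ) : ℂ))⁻¹ = (-(τ : ℂ))⁻¹
  rw [coe_heckeDiagMatrix_smul hN]
  have h1 : ((N : ℕ) : ℂ) ≠ 0 := by exact_mod_cast hN
  have h2 : (τ : ℂ) ≠ 0 := UpperHalfPlane.ne_zero τ
  field_simp

theorem jFun_heckeDiagMatrix_smul_frickePt (τ : ℍ) :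
    jFun (heckeDiagMatrix N • frickePt N τ) = jFun τ := by
  rw [heckeDiagMatrix_smul_frickePt, jFun_smul]

/-- **(E1-d), mirrored**: the place at `-1/(Nτ)` has `j = b` and `j_N = a`. -/
theorem exists_place_fricke (τ : ℍ) (a b : Kb) (ha : jFun τ = ι a)
    (hb : jFun (heckeDiagMatrix N • τ) = ι b) :
    ∃ x : Place Kb ↥(modularFunctionFieldBar N),
      jgen N - algebraMap Kb ↥(modularFunctionFieldBar N) b ∈ x.toValuationSubring.nonunits ∧
      jdivF N ⟨N, dvd_rfl⟩ - algebraMap Kb ↥(modularFunctionFieldBar N) a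
        ∈ x.toValuationSubring.nonunits :=
  exists_place N ι (frickePt N τ) b a ((jFun_frickePt N τ).trans hb)
    ((jFun_heckeDiagMatrix_smul_frickePt N τ).trans ha)

/-- Every pair `(a, b)` of algebraic numbers which is `(j(τ), j(Nτ))` for some `τ` is the pair of
values of `(j, j_N)` at a place, and `(b, a)` is the pair of values at another (or the same)
place. -/
theorem exists_places (τ : ℍ) (a b : Kb) (ha : jFun τ = ι a)
    (hb : jFun (heckeDiagMatrix N • τ) = ι b) :
    ∃ x x' : Place Kb ↥(modularFunctionFieldBar N),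
      (jgen N - algebraMap Kb ↥(modularFunctionFieldBar N) a ∈ x.toValuationSubring.nonunits ∧
        jdivF N ⟨N, dvd_rfl⟩ - algebraMap Kb ↥(modularFunctionFieldBar N) b
          ∈ x.toValuationSubring.nonunits) ∧
      (jgen N - algebraMap Kb ↥(modularFunctionFieldBar N) b ∈ x'.toValuationSubring.nonunits ∧
        jdivF N ⟨N, dvd_rfl⟩ - algebraMap Kb ↥(modularFunctionFieldBar N) a
          ∈ x'.toValuationSubring.nonunits) := by
  obtain ⟨x, hx⟩ := exists_place N ι τ a b ha hb
  obtain ⟨x', hx'⟩ := exists_place_fricke N ι τ a b ha hb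
  exact ⟨x, x', hx, hx'⟩

end Fermat.Agent.S15.E1.PlaceAtTau
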